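import Fermat.Agent.FLTReg.Descent

/-!
# Truncated polynomial arithmetic in `λ`, for checking Kummer certificates by `decide`

The units of a certificate are products of powers of the `θ_j`, which are integer polynomials in
`λ`. Modulo `λ^n`, `n ≤ (p-1)/2`, only coefficients modulo `p` in degrees below `n` matter, so the
congruences of a certificate are computations on lists of integers.
-/

set_option autoImplicit false

namespace FermatAgent.FLTReg

open Finset

variable (p : ℕ) [hp : Fact p.Prime] [h5 : Fact (5 ≤ p)]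

/-- Evaluate a coefficient list at `λ`. -/
noncomputable def evL : List ℤ → RR p
  | [] => 0
  | a :: l => (a : RR p) + lam p * evL l

/-- Sum of coefficient lists. -/
def addL : List ℤ → List ℤ → List ℤ
  | [], b => b
  | a :: l, [] => a :: l
  | a :: l, b :: m => (a + b) :: addL l m

/-- Product of coefficient lists. -/
def mulL : List ℤ → List ℤ → List ℤ
  | [], _ => []
  | a :: l, b => addL (b.map (a * ·)) (0 :: mulL l b)

/-- Reduce the coefficients modulo `p` and truncate at length `n`. -/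
def redL (q : ℤ) : ℕ → List ℤ → List ℤ
  | 0, _ => []
  | n + 1, [] => 0 :: redL q n []
  | n + 1, a :: l => (a % q) :: redL q n l

/-- Truncated power. -/
def powL (q : ℤ) (n : ℕ) (l : List ℤ) : ℕ → List ℤ
  | 0 => [1]
  | k + 1 => redL q n (mulL (powL q n l k) l)

/-- Coefficient list of `θ_j` in terms of `λ`. -/
def thetaL : ℕ → List ℤ
  | 0 => [2]
  | 1 => [2, -1]
  | j + 2 => addL (mulL [2, -1] (thetaL (j + 1))) ((thetaL j).map (-1 * ·))

/-- Truncated product of powers of `θ_1, θ_2, ...`, starting at index `j`. -/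
def prodL (q : ℤ) (n : ℕ) : ℕ → List ℕ → List ℤ
  | _, [] => [1]
  | j, e :: es => redL q n (mulL (powL q n (thetaL j) e) (prodL q n (j + 1) es))

theorem evL_addL : ∀ a b : List ℤ, evL p (addL a b) = evL p a + evL p b
  | [], b => by simp [addL, evL]
  | a :: l, [] => by simp [addL, evL]
  | a :: l, b :: m => by simp [addL, evL, evL_addL l m]; ring

theorem evL_map (c : ℤ) : ∀ b : List ℤ, evL p (b.map (c * ·)) = (c : RR p) * evL p b
  | [] => by simp [evL]
  | a :: l => by simp [evL, evL_map c l]; ring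

theorem evL_mulL : ∀ a b : List ℤ, evL p (mulL a b) = evL p a * evL p b
  | [], b => by simp [mulL, evL]
  | a :: l, b => by simp [mulL, evL, evL_addL, evL_map, evL_mulL l b]; ring

theorem evL_redL : ∀ (n : ℕ), n ≤ dd p → ∀ l : List ℤ,
    lam p ^ n ∣ evL p l - evL p (redL (p : ℤ) n l)
  | 0, _, l => by simp
  | n + 1, hn, [] => by
    obtain ⟨t, ht⟩ := evL_redL n (by omega) []
    refine ⟨t, ?_⟩
    simp only [redL, evL] at ht ⊢
    push_cast
    rw [pow_succ']
    linear_combination (lam p) * ht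
  | n + 1, hn, a :: l => by
    obtain ⟨t, ht⟩ := evL_redL n (by omega) l
    obtain ⟨t', ht'⟩ := lam_pow_dvd_p p hn
    refine ⟨t + t' * ((a / (p : ℤ) : ℤ) : RR p), ?_⟩
    simp only [redL, evL]
    have hdiv := congrArg (Int.cast : ℤ → RR p) (Int.mul_ediv_add_emod a (p : ℤ))
    push_cast at hdiv ⊢
    rw [pow_succ'] at ht' ⊢
    linear_combination (lam p) * ht - hdiv + (((a / (p : ℤ) : ℤ) : RR p)) * ht'

theorem evL_thetaL : ∀ j, evL p (thetaL j) = theta p j
  | 0 => by
    apply iot_injective p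
    simp [thetaL, evL, iot_theta]
    rw [show (2 : RR p) = 1 + 1 by norm_num, map_add, map_one]
  | 1 => by simp [thetaL, evL, lam, lamJ]
  | j + 2 => by
    have h1 := evL_thetaL (j + 1)
    have h0 := evL_thetaL j
    simp only [thetaL, evL_addL, evL_mulL, evL_map, h1, h0, evL]
    push_cast
    apply iot_injective p
    simp only [map_add, map_mul, map_neg, map_one, map_ofNat, map_zero, iot_theta, lam, iot_lamJ]
    have hzz : zet p * zet p ^ (p - 1) = 1 := zet_mul_inv p
    linear_combination (zet p ^ j + (zet p ^ (p - 1)) ^ j) * hzz +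
      (-(zet p ^ (j + 1) + (zet p ^ (p - 1)) ^ (j + 1))) * hzz

theorem dvd_powL {n : ℕ} (hn : n ≤ dd p) (l : List ℤ) :
    ∀ k, lam p ^ n ∣ evL p l ^ k - evL p (powL (p : ℤ) n l k)
  | 0 => by simp [powL, evL]
  | k + 1 => by
    have e : evL p l ^ (k + 1) - evL p (powL (p : ℤ) n l (k + 1)) =
        (evL p l ^ k - evL p (powL (p : ℤ) n l k)) * evL p l +
        (evL p (mulL (powL (p : ℤ) n l k) l) - evL p (powL (p : ℤ) n l (k + 1))) := by
      rw [evL_mulL]; ring
    rw [e]
    exact dvd_add (dvd_mul_of_dvd_left (dvd_powL hn l k) _) (evL_redL p n hn _)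

/-- The product `θ_j^{e_0} θ_{j+1}^{e_1} ...` -/
noncomputable def thetaProd : ℕ → List ℕ → RR p
  | _, [] => 1
  | j, e :: es => theta p j ^ e * thetaProd (j + 1) es

theorem dvd_prodL {n : ℕ} (hn : n ≤ dd p) : ∀ (es : List ℕ) (j : ℕ),
    lam p ^ n ∣ thetaProd p j es - evL p (prodL (p : ℤ) n j es)
  | [], j => by simp [thetaProd, prodL, evL]
  | e :: es, j => by
    have h1 := dvd_powL p hn (thetaL j) e
    rw [evL_thetaL] at h1
    have h2 := dvd_prodL hn es (j + 1)
    have h3 := evL_redL p n hn (mulL (powL (p : ℤ) n (thetaL j) e) (prodL (p : ℤ) n (j + 1) es))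
    rw [evL_mulL] at h3
    have e' : thetaProd p j (e :: es) - evL p (prodL (p : ℤ) n j (e :: es)) =
        (theta p j ^ e - evL p (powL (p : ℤ) n (thetaL j) e)) * thetaProd p (j + 1) es +
        evL p (powL (p : ℤ) n (thetaL j) e) *
          (thetaProd p (j + 1) es - evL p (prodL (p : ℤ) n (j + 1) es)) +
        (evL p (powL (p : ℤ) n (thetaL j) e) * evL p (prodL (p : ℤ) n (j + 1) es) -
          evL p (prodL (p : ℤ) n j (e :: es))) := by
      rw [thetaProd]; ring
    rw [e']
    exact dvd_add (dvd_add (dvd_mul_of_dvd_left h1 _) (dvd_mul_of_dvd_right h2 _)) h3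

theorem isUnit_theta {j : ℕ} (hj : ¬ p ∣ j) : IsUnit (theta p j) := by
  rw [← iot_isUnit_iff p, iot_theta]
  have hzz : zet p ^ j * (zet p ^ (p - 1)) ^ j = 1 := by rw [← mul_pow, zet_mul_inv, one_pow]
  have h2 : ¬ p ∣ 2 * j := fun h => (hp.out.dvd_mul.1 h).elim
    (fun h => by have := Nat.le_of_dvd (by norm_num) h; have := h5.out; omega) hj
  have h4 : ¬ p ∣ 2 * (2 * j) := fun h => (hp.out.dvd_mul.1 h).elim
    (fun h => by have := Nat.le_of_dvd (by norm_num) h; have := h5.out; omega) h2
  obtain ⟨u, hu⟩ := (assoc_sub_one_pow p h2).symm.trans (assoc_sub_one_pow p h4)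
  have he : (zet p ^ (2 * j) - 1) * (u : SS p) =
      (zet p ^ (2 * j) - 1) * (zet p ^ (2 * j) + 1) := by
    rw [hu, pow_mul' (zet p) 2 (2 * j)]; ring
  have hne : zet p ^ (2 * j) - 1 ≠ 0 :=
    (assoc_sub_one_pow p h2).ne_zero_iff.1 (prime_zet_sub_one p).ne_zero
  have hu' := mul_left_cancel₀ hne he
  have : zet p ^ j + (zet p ^ (p - 1)) ^ j = (zet p ^ (p - 1)) ^ j * (u : SS p) := by
    rw [hu']
    linear_combination -(zet p ^ j) * hzz
  rw [this]
  exact (((isUnit_zet p).pow _).pow _).mul u.isUnit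

theorem isUnit_thetaProd : ∀ (es : List ℕ) (j : ℕ), 1 ≤ j → j + es.length ≤ dd p + 1 →
    IsUnit (thetaProd p j es)
  | [], j, _, _ => isUnit_one
  | e :: es, j, hj, hle => by
    rw [List.length_cons] at hle
    refine ((isUnit_theta p fun hd => ?_).pow e).mul
      (isUnit_thetaProd es (j + 1) (by omega) (by omega))
    have := Nat.le_of_dvd (by omega) hd
    have := p_eq_two_dd p
    omega

theorem evL_zeros (x : ℤ) : ∀ k, evL p (List.replicate k 0 ++ [x]) = (x : RR p) * lam p ^ k
  | 0 => by simp [evL]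
  | k + 1 => by simp [List.replicate_succ, evL, evL_zeros x k]; ring

/-- **Kummer's lemma by computation**: exponent lists `es k` of the `θ_j` whose products have the
certificate congruences, as an equality of reduced coefficient lists, give `KummerProp p`. -/
theorem kummerProp_of_lists (es : Fin (dd p - 1) → List ℕ) (c s : Fin (dd p - 1) → ℤ)
    (hlen : ∀ k, (es k).length ≤ dd p)
    (hc : ∀ k, ¬ (p : ℤ) ∣ c k) (hs : ∀ k, ¬ (p : ℤ) ∣ s k)
    (hchk : ∀ k : Fin (dd p - 1), prodL (p : ℤ) ((k : ℕ) + 2) 1 (es k) =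
      redL (p : ℤ) ((k : ℕ) + 2) (c k :: (List.replicate (k : ℕ) 0 ++ [c k * s k]))) :
    KummerProp p := by
  refine kummerProp_of_cert p (fun k => (isUnit_thetaProd p (es k) 1 le_rfl
    (by have := hlen k; omega)).unit) c s hc hs fun k => ?_
  have hk : (k : ℕ) + 2 ≤ dd p := by have := k.2; omega
  have h1 := dvd_prodL p hk (es k) 1
  rw [hchk k] at h1
  have h2 := evL_redL p _ hk (c k :: (List.replicate (k : ℕ) 0 ++ [c k * s k]))
  have h3 := dvd_sub h1 h2
  rw [IsUnit.unit_spec]
  have e : evL p (c k :: (List.replicate (k : ℕ) 0 ++ [c k * s k])) =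
      (c k : RR p) * (1 + (s k : RR p) * lam p ^ ((k : ℕ) + 1)) := by
    rw [evL, evL_zeros]; push_cast; ring
  rw [← e]
  simpa using h3

end FermatAgent.FLTReg
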