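import Mathlib

/-!
# Case I of FLT via Sophie Germain's criterion

For an odd prime `p` and an auxiliary prime `θ` such that `x^p + y^p + z^p = 0` in `ZMod θ`
forces one of `x, y, z` to vanish and such that `p` is not a `p`-th power mod `θ`, there is no
solution of `a^p + b^p + c^p = 0` in pairwise coprime integers prime to `p`.
-/

set_option autoImplicit false

namespace FermatAgent.FLTReg

open Finset

theorem neg_one_geom {R : Type*} [CommRing R] (a b : R) {p : ℕ} (hp : Odd p) :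
    (∑ i ∈ range p, a ^ i * (-b) ^ (p - 1 - i)) * (a + b) = a ^ p + b ^ p := by
  have := geom_sum₂_mul a (-b) p
  rw [sub_neg_eq_add, hp.neg_pow, sub_neg_eq_add] at this
  exact this

/-- The Barlow relations: for a first case solution `a + b` and the cofactor of `a^p + b^p` are
`p`-th powers. -/
theorem exists_pow_of_add {p : ℕ} (hp : p.Prime) (hodd : Odd p) {a b c : ℤ}
    (hab : IsCoprime a b) (hc : ¬ (p : ℤ) ∣ c) (h : a ^ p + b ^ p + c ^ p = 0) :
    ∃ C D : ℤ, a + b = C ^ p ∧ (∑ i ∈ range p, a ^ i * (-b) ^ (p - 1 - i)) = D ^ p ∧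
      C * D = -c := by
  have hmul : (a + b) * (∑ i ∈ range p, a ^ i * (-b) ^ (p - 1 - i)) = (-c) ^ p := by
    rw [mul_comm, neg_one_geom a b hodd, hodd.neg_pow]
    linear_combination h
  have hcop : IsCoprime (a + b) (∑ i ∈ range p, a ^ i * (-b) ^ (p - 1 - i)) := by
    apply isCoprime_of_prime_dvd
    · rintro ⟨h1, h2⟩
      rw [h1, h2, zero_mul] at hmul
      have : c = 0 := by
        have := eq_zero_of_pow_eq_zero hmul.symm
        simpa using this
      exact hc (this ▸ dvd_zero _)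
    intro q hq hq1 hq2
    have hqc : q ∣ c := by
      have : q ∣ (-c) ^ p := hmul ▸ hq1.mul_right _
      exact (dvd_neg).1 (hq.dvd_of_dvd_pow this)
    -- modulo `q`, the sum is `p * a ^ (p - 1)`
    have hsum : q ∣ (∑ i ∈ range p, a ^ i * (-b) ^ (p - 1 - i)) -
        (p : ℤ) * (-b) ^ (p - 1) := by
      have hd : a + b ∣ (∑ i ∈ range p, a ^ i * (-b) ^ (p - 1 - i)) -
          (p : ℤ) * (-b) ^ (p - 1) := by
        rw [← geom_sum₂_self (-b) p, ← Finset.sum_sub_distrib]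
        refine Finset.dvd_sum fun i _ => ?_
        rw [← sub_mul]
        refine dvd_mul_of_dvd_left ?_ _
        have := sub_dvd_pow_sub_pow a (-b) i
        simpa using this
      exact hq1.trans hd
    have hpb : q ∣ (p : ℤ) * (-b) ^ (p - 1) := by
      have := dvd_sub hq2 hsum
      simpa using this
    rcases hq.dvd_or_dvd hpb with hqp | hqb
    · have hpq : (p : ℤ) ∣ q :=
        (hq.irreducible.associated_of_dvd (Nat.prime_iff_prime_int.1 hp).irreducible hqp).symm.dvd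
      exact hc (hpq.trans hqc)
    · have hqb' : q ∣ b := dvd_neg.1 (hq.dvd_of_dvd_pow hqb)
      have hqa : q ∣ a := by simpa using dvd_sub hq1 hqb'
      exact hq.not_isUnit (hab.isUnit_of_dvd' hqa hqb')
  have hu : ∀ {x y : ℤ}, IsCoprime x y → x * y = (-c) ^ p → ∃ d : ℤ, x = d ^ p := fun h1 h2 => by
    obtain ⟨d, hd⟩ := exists_associated_pow_of_mul_eq_pow' h1 h2
    rcases Int.associated_iff.1 hd with h | h
    · exact ⟨d, h.symm⟩
    · exact ⟨-d, by rw [hodd.neg_pow, h, neg_neg]⟩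
  obtain ⟨C, hC⟩ := hu hcop hmul
  obtain ⟨D, hD⟩ := hu hcop.symm (by rw [mul_comm, hmul])
  refine ⟨C, D, hC, hD, hodd.strictMono_pow.injective ?_⟩
  rw [mul_pow, ← hC, ← hD, hmul]

theorem sophie_germain_aux {p θ : ℕ} (hp : p.Prime) (hodd : Odd p) [Fact θ.Prime]
    (hθ1 : ∀ x y z : ZMod θ, x ^ p + y ^ p + z ^ p = 0 → x = 0 ∨ y = 0 ∨ z = 0)
    (hθ2 : ∀ x : ZMod θ, x ^ p ≠ (p : ZMod θ))
    {a b c : ℤ} (hab : IsCoprime a b) (hbc : IsCoprime b c) (hca : IsCoprime c a)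
    (hA : ¬ (p : ℤ) ∣ a) (hB : ¬ (p : ℤ) ∣ b) (hC : ¬ (p : ℤ) ∣ c)
    (hθc : (c : ZMod θ) = 0) (h : a ^ p + b ^ p + c ^ p = 0) : False := by
  obtain ⟨C, D, hCab, hDab, hCD⟩ := exists_pow_of_add hp hodd hab hC h
  obtain ⟨A, A', hAbc, -, -⟩ := exists_pow_of_add hp hodd hbc hA (by linear_combination h)
  obtain ⟨B, B', hBca, -, -⟩ := exists_pow_of_add hp hodd hca hB (by linear_combination h)
  have hne : ∀ {x y : ℤ}, IsCoprime x y → (x : ZMod θ) = 0 → (y : ZMod θ) ≠ 0 := by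
    intro x y hxy hx hy
    have hnu : ¬ IsUnit (θ : ℤ) := by
      rw [Int.isUnit_iff]
      have := (Fact.out : θ.Prime).two_le
      omega
    exact hnu (hxy.isUnit_of_dvd' ((ZMod.intCast_zmod_eq_zero_iff_dvd x θ).1 hx)
      ((ZMod.intCast_zmod_eq_zero_iff_dvd y θ).1 hy))
  have hb0 : (b : ZMod θ) ≠ 0 := hne hbc.symm hθc
  have ha0 : (a : ZMod θ) ≠ 0 := hne hca hθc
  have eC : (a : ZMod θ) + b = (C : ZMod θ) ^ p := by
    exact_mod_cast congrArg (Int.cast : ℤ → ZMod θ) hCab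
  have eA : (b : ZMod θ) + c = (A : ZMod θ) ^ p := by
    exact_mod_cast congrArg (Int.cast : ℤ → ZMod θ) hAbc
  have eB : (c : ZMod θ) + a = (B : ZMod θ) ^ p := by
    exact_mod_cast congrArg (Int.cast : ℤ → ZMod θ) hBca
  have eD : (∑ i ∈ range p, (a : ZMod θ) ^ i * (-(b : ZMod θ)) ^ (p - 1 - i)) =
      (D : ZMod θ) ^ p := by
    exact_mod_cast congrArg (Int.cast : ℤ → ZMod θ) hDab
  rw [hθc, add_zero] at eA
  rw [hθc, zero_add] at eB
  have hA0 : (A : ZMod θ) ≠ 0 := fun h0 => hb0 (by rw [eA, h0, zero_pow hp.ne_zero])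
  have hB0 : (B : ZMod θ) ≠ 0 := fun h0 => ha0 (by rw [eB, h0, zero_pow hp.ne_zero])
  have hC0 : (C : ZMod θ) = 0 := by
    have key : (C : ZMod θ) ^ p + (-(A : ZMod θ)) ^ p + (-(B : ZMod θ)) ^ p = 0 := by
      rw [hodd.neg_pow, hodd.neg_pow, ← eA, ← eB, ← eC]; ring
    rcases hθ1 _ _ _ key with h0 | h0 | h0
    · exact h0
    · exact absurd (neg_eq_zero.1 h0) hA0
    · exact absurd (neg_eq_zero.1 h0) hB0
  have hab0 : -(b : ZMod θ) = a := by
    rw [hC0, zero_pow hp.ne_zero] at eC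
    linear_combination -eC
  rw [hab0, geom_sum₂_self, eB, pow_right_comm] at eD
  apply hθ2 ((D : ZMod θ) / (B : ZMod θ) ^ (p - 1))
  rw [div_pow, ← eD, mul_div_assoc, div_self (pow_ne_zero _ (pow_ne_zero _ hB0)), mul_one]

/-- **Sophie Germain's theorem**: with an auxiliary prime `θ` there are no pairwise coprime
solutions of `a ^ p + b ^ p + c ^ p = 0` prime to `p`. -/
theorem sophie_germain {p θ : ℕ} (hp : p.Prime) (hodd : Odd p) [Fact θ.Prime]
    (hθ1 : ∀ x y z : ZMod θ, x ^ p + y ^ p + z ^ p = 0 → x = 0 ∨ y = 0 ∨ z = 0)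
    (hθ2 : ∀ x : ZMod θ, x ^ p ≠ (p : ZMod θ))
    {a b c : ℤ} (hab : IsCoprime a b) (hbc : IsCoprime b c) (hca : IsCoprime c a)
    (hA : ¬ (p : ℤ) ∣ a) (hB : ¬ (p : ℤ) ∣ b) (hC : ¬ (p : ℤ) ∣ c)
    (h : a ^ p + b ^ p + c ^ p = 0) : False := by
  have e : (a : ZMod θ) ^ p + (b : ZMod θ) ^ p + (c : ZMod θ) ^ p = 0 := by
    exact_mod_cast congrArg (Int.cast : ℤ → ZMod θ) h
  rcases hθ1 _ _ _ e with h0 | h0 | h0
  · exact sophie_germain_aux hp hodd hθ1 hθ2 hbc hca hab hB hC hA h0 (by linear_combination h)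
  · exact sophie_germain_aux hp hodd hθ1 hθ2 hca hab hbc hC hA hB h0 (by linear_combination h)
  · exact sophie_germain_aux hp hodd hθ1 hθ2 hab hbc hca hA hB hC h0 h

/-- Decidable form of the hypotheses of Sophie Germain's criterion, with `θ = k * p + 1`. -/
theorem sophie_germain_hyps {p θ k : ℕ} [Fact θ.Prime] (hk : θ - 1 = p * k) (hp : p ≠ 0)
    (h1 : ∀ u : ZMod θ, u ^ k = 1 → (-1 - u) ^ k ≠ 1)
    (h2 : (p : ZMod θ) ^ k ≠ 1) (h3 : (p : ZMod θ) ≠ 0) :
    (∀ x y z : ZMod θ, x ^ p + y ^ p + z ^ p = 0 → x = 0 ∨ y = 0 ∨ z = 0) ∧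
      (∀ x : ZMod θ, x ^ p ≠ (p : ZMod θ)) := by
  refine ⟨fun x y z h => ?_, fun x hx => ?_⟩
  · by_contra! hne
    obtain ⟨hx, hy, hz⟩ := hne
    have hk' : ∀ w : ZMod θ, w ≠ 0 → (w ^ p) ^ k = 1 := fun w hw => by
      rw [← pow_mul, ← hk, ZMod.pow_card_sub_one_eq_one hw]
    apply h1 ((x / z) ^ p) (hk' _ (div_ne_zero hx hz))
    have : -1 - (x / z) ^ p = (y / z) ^ p := by
      rw [div_pow, div_pow]
      field_simp
      linear_combination -h
    rw [this]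
    exact hk' _ (div_ne_zero hy hz)
  · have hx0 : x ≠ 0 := by rintro rfl; exact h3 (by rw [← hx, zero_pow hp])
    apply h2
    rw [← hx, ← pow_mul, ← hk, ZMod.pow_card_sub_one_eq_one hx0]

end FermatAgent.FLTReg
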