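import Fermat.Prelude.Def_FLTPrelim_FreyPackage
import Fermat.Agent.FLTReg.Cert
import Fermat.Agent.FLTReg.SophieGermain

/-!
# FLT for the exponents 5, 7, 11, 13

Case I is Sophie Germain's criterion with `θ = 11, 29, 23, 53`; case II is Kummer's descent, the
two inputs being checked by computation. So these exponents have no Frey package, which settles
any statement about their Galois stable lines.
-/

set_option autoImplicit false

namespace FermatAgent.FLTReg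

/-- No Frey package has exponent `p`, given an auxiliary prime `θ = k p + 1` satisfying Sophie
Germain's conditions, `RR p` principal and Kummer's lemma. -/
theorem flt_of_data (p : ℕ) [hp : Fact p.Prime] [h5 : Fact (5 ≤ p)] (θ k : ℕ) [Fact θ.Prime]
    (hk : θ - 1 = p * k) (h1 : ∀ u : ZMod θ, u ^ k = 1 → (-1 - u) ^ k ≠ 1)
    (h2 : (p : ZMod θ) ^ k ≠ 1) (h3 : (p : ZMod θ) ≠ 0)
    (hpid : IsPrincipalIdealRing (RR p)) (hK : KummerProp p)
    (P : FreyPackage) (hP : P.p = p) : False := by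
  have hodd : Odd p := hp.out.odd_of_ne_two (by have := h5.out; omega)
  have hcop : ∀ {x y : ℤ}, gcd x y = 1 → IsCoprime x y := fun h =>
    Int.isCoprime_iff_gcd_eq_one.2 (by rw [← Int.coe_gcd] at h; exact_mod_cast h)
  have hab := hcop P.hgcdab
  have hac := hcop P.hgcdac
  have hbc := hcop P.hgcdbc
  have h := P.hFLT
  rw [hP] at h
  by_cases hc : (p : ℤ) ∣ P.c
  · exact case_two p hK hab P.hc0 hc h
  by_cases ha : (p : ℤ) ∣ P.a
  · refine case_two p hK (a := P.c) (b := -P.b) (c := P.a) hbc.symm.neg_right P.ha0 ha ?_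
    rw [hodd.neg_pow]; linear_combination -h
  by_cases hb : (p : ℤ) ∣ P.b
  · refine case_two p hK (a := P.c) (b := -P.a) (c := P.b) hac.symm.neg_right P.hb0 hb ?_
    rw [hodd.neg_pow]; linear_combination -h
  obtain ⟨hθ1, hθ2⟩ := sophie_germain_hyps (p := p) (θ := θ) (k := k) hk hp.out.ne_zero h1 h2 h3
  refine sophie_germain (a := P.a) (b := P.b) (c := -P.c) hp.out hodd hθ1 hθ2 hab
    hbc.neg_right hac.symm.neg_left ha hb (fun hd => hc (dvd_neg.1 hd)) ?_
  rw [hodd.neg_pow]; linear_combination h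

theorem chk_5 : (∀ u : ZMod 11, u ^ 2 = 1 → (-1 - u) ^ 2 ≠ 1) ∧
    ((5 : ℕ) : ZMod 11) ^ 2 ≠ 1 ∧ ((5 : ℕ) : ZMod 11) ≠ 0 := by
  decide

theorem chk_7 : (∀ u : ZMod 29, u ^ 4 = 1 → (-1 - u) ^ 4 ≠ 1) ∧
    ((7 : ℕ) : ZMod 29) ^ 4 ≠ 1 ∧ ((7 : ℕ) : ZMod 29) ≠ 0 := by
  decide

theorem chk_11 : (∀ u : ZMod 23, u ^ 2 = 1 → (-1 - u) ^ 2 ≠ 1) ∧
    ((11 : ℕ) : ZMod 23) ^ 2 ≠ 1 ∧ ((11 : ℕ) : ZMod 23) ≠ 0 := by
  decide

theorem chk_13 : (∀ u : ZMod 53, u ^ 4 = 1 → (-1 - u) ^ 4 ≠ 1) ∧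
    ((13 : ℕ) : ZMod 53) ^ 4 ≠ 1 ∧ ((13 : ℕ) : ZMod 53) ≠ 0 := by
  decide

/-- No Frey package has exponent `5`. -/
theorem flt_five (P : FreyPackage) (hP : P.p = 5) : False := by
  have : Fact (Nat.Prime 5) := ⟨by norm_num⟩
  have : Fact (5 ≤ 5) := ⟨le_rfl⟩
  have : Fact (Nat.Prime 11) := ⟨by norm_num⟩
  refine flt_of_data 5 11 2 (by norm_num) chk_5.1 chk_5.2.1 chk_5.2.2 ?_ ?_ P hP
  · exact isPrincipalIdealRing_RR 5 1 (by decide) (by decide)
  · exact kummerProp_of_lists 5 ![[1]] ![2] ![2] (by decide) (by decide) (by decide) (by decide)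

/-- No Frey package has exponent `7`. -/
theorem flt_seven (P : FreyPackage) (hP : P.p = 7) : False := by
  have : Fact (Nat.Prime 7) := ⟨by norm_num⟩
  have : Fact (5 ≤ 7) := ⟨by norm_num⟩
  have : Fact (Nat.Prime 29) := ⟨by norm_num⟩
  refine flt_of_data 7 29 4 (by norm_num) chk_7.1 chk_7.2.1 chk_7.2.2 ?_ ?_ P hP
  · exact isPrincipalIdealRing_RR 7 1 (by decide) (by decide)
  · exact kummerProp_of_lists 7 ![[0, 1], [3, 1]] ![2, 2] ![5, 6]
      (by decide) (by decide) (by decide) (by decide)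

/-- No Frey package has exponent `11`. -/
theorem flt_eleven (P : FreyPackage) (hP : P.p = 11) : False := by
  have : Fact (Nat.Prime 11) := ⟨by norm_num⟩
  have : Fact (5 ≤ 11) := ⟨by norm_num⟩
  have : Fact (Nat.Prime 23) := ⟨by norm_num⟩
  refine flt_of_data 11 23 2 (by norm_num) chk_11.1 chk_11.2.1 chk_11.2.2 ?_ ?_ P hP
  · exact isPrincipalIdealRing_RR 11 4 (by decide) (by decide)
  · exact kummerProp_of_lists 11 ![[0, 0, 0, 1], [0, 1, 2, 0], [1, 4, 3, 0], [7, 2, 1, 4]]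
      ![2, 8, 3, 5] ![3, 9, 9, 6] (by decide) (by decide) (by decide) (by decide)

/-- No Frey package has exponent `13`. -/
theorem flt_thirteen (P : FreyPackage) (hP : P.p = 13) : False := by
  have : Fact (Nat.Prime 13) := ⟨by norm_num⟩
  have : Fact (5 ≤ 13) := ⟨by norm_num⟩
  have : Fact (Nat.Prime 53) := ⟨by norm_num⟩
  refine flt_of_data 13 53 4 (by norm_num) chk_13.1 chk_13.2.1 chk_13.2.2 ?_ ?_ P hP
  · exact isPrincipalIdealRing_RR 13 9 (by decide) (by decide)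
  · exact kummerProp_of_lists 13
      ![[0, 0, 0, 0, 1], [0, 1, 1, 0, 0], [1, 0, 1, 1, 0], [1, 4, 4, 0, 1], [2, 10, 6, 3, 1]]
      ![2, 4, 8, 10, 10] ![7, 6, 6, 5, 10] (by decide) (by decide) (by decide) (by decide)

end FermatAgent.FLTReg
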