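import Fermat.Agent.FLTReg.PID

/-!
# The second case of FLT for `p` with principal real cyclotomic ring and Kummer's lemma

Kummer's descent inside `RR p`: from `x^p + y^p = η (λ^m z)^p` the factors `x + y` and
`((x + y)^2 - λ_a x y) / λ_a` are units times coprime `p`-th powers; two of them give a new
solution whose `z` has strictly fewer prime divisors.
-/

set_option autoImplicit false

namespace FermatAgent.FLTReg

open NumberField Finset

variable (p : ℕ) [hp : Fact p.Prime] [h5 : Fact (5 ≤ p)]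

theorem pow_add_pow_eq_prod (x y : RR p) :
    x ^ p + y ^ p =
      (x + y) * ∏ a ∈ range (dd p), ((x + y) ^ 2 - lamJ p (a + 1) * (x * y)) := by
  apply iot_injective p
  set X := iot p x with hX
  set Y := iot p y with hY
  set z := zet p with hz
  have h1 : X ^ p + Y ^ p = ∏ i ∈ range p, (X + z ^ i * Y) := by
    have e := (zet_isPrimitiveRoot p).pow_add_pow_eq_prod_add_mul X Y
      (hp.out.odd_of_ne_two (by have := h5.out; omega))
    rw [e]
    refine (Finset.prod_bij (fun i _ => z ^ i) ?_ ?_ ?_ ?_).symm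
    · intro i _
      rw [Polynomial.mem_nthRootsFinset hp.out.pos, ← pow_mul, mul_comm, pow_mul, hz, zet_pow_p,
        one_pow]
    · intro i hi j hj h
      exact (zet_isPrimitiveRoot p).pow_inj (mem_range.1 hi) (mem_range.1 hj) h
    · intro w hw
      rw [Polynomial.mem_nthRootsFinset hp.out.pos] at hw
      obtain ⟨i, hi, h⟩ := (zet_isPrimitiveRoot p).eq_pow_of_pow_eq_one hw
      exact ⟨i, mem_range.2 hi, h⟩
    · intro i _; rfl
  have h2 : ∏ i ∈ range p, (X + z ^ i * Y) = (X + Y) * ∏ a ∈ range (dd p),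
      ((X + z ^ (a + 1) * Y) * (X + (z ^ (p - 1)) ^ (a + 1) * Y)) := by
    rw [Finset.prod_mul_distrib]
    have hr : range p = range (2 * dd p + 1) := by rw [← p_eq_two_dd p]
    rw [hr, Finset.prod_range_succ', two_mul, Finset.prod_range_add, pow_zero, one_mul]
    rw [mul_comm _ (X + Y)]
    congr 2
    rw [← Finset.prod_range_reflect (fun a => X + (z ^ (p - 1)) ^ (a + 1) * Y) (dd p)]
    refine Finset.prod_congr rfl fun b hb => ?_
    have hb' := mem_range.1 hb
    congr 2
    rw [← pow_mul]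
    obtain ⟨k, hk⟩ : ∃ k, dd p - 1 - b + 1 = k + 1 := ⟨_, rfl⟩
    have e : (p - 1) * (dd p - 1 - b + 1) = p * (dd p - 1 - b) + (dd p + b + 1) := by
      have hb1 : dd p - 1 - b + 1 + b = dd p := by omega
      have h3 := p_eq_two_dd p
      have h4 : (p - 1) * (dd p - 1 - b + 1) = p * (dd p - 1 - b + 1) - (dd p - 1 - b + 1) := by
        rw [Nat.sub_mul, one_mul]
      rw [h4, Nat.mul_add, mul_one]
      omega
    rw [e, pow_add z (p * (dd p - 1 - b)), pow_mul, hz, zet_pow_p, one_pow, one_mul]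
  rw [map_add, map_pow, map_pow, ← hX, ← hY, h1, h2, map_mul, map_add, map_prod, ← hX, ← hY]
  refine congrArg _ (Finset.prod_congr rfl fun a _ => ?_)
  rw [map_sub, map_pow, map_add, map_mul, map_mul, iot_lamJ, ← hX, ← hY, ← hz]
  have hzz : z ^ (a + 1) * (z ^ (p - 1)) ^ (a + 1) = 1 := by
    rw [← mul_pow, hz, zet_mul_inv, one_pow]
  linear_combination (Y ^ 2 + X * Y) * hzz

theorem not_p_dvd_succ {a : ℕ} (ha : a < dd p) : ¬ p ∣ a + 1 := fun h => by
  have := Nat.le_of_dvd (by omega) h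
  have := p_eq_two_dd p
  omega

theorem assoc_lamJ_sub {a b : ℕ} (ha : a < dd p) (hb : b < dd p) (h : a ≠ b) :
    Associated (lamJ p (b + 1) - lamJ p (a + 1)) (lam p) := by
  have h2 := p_eq_two_dd p
  rw [lamJ, lamJ, show (2 : RR p) - theta p (b + 1) - (2 - theta p (a + 1)) =
    theta p (a + 1) - theta p (b + 1) by ring]
  have hn : ∀ n, 0 < n → n < p → ¬ p ∣ n := fun n hn hnp hd =>
    absurd (Nat.le_of_dvd hn hd) (by omega)
  rcases lt_or_gt_of_ne h with hlt | hgt
  · rw [← neg_sub]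
    exact (associated_theta_sub p (hn _ (by omega) (by omega)) (by omega)
      (hn _ (by omega) (by omega))).neg_left
  · exact associated_theta_sub p (hn _ (by omega) (by omega)) (by omega)
      (hn _ (by omega) (by omega))

theorem lam_dvd_add_of_dvd_pow_add {x y : RR p} (h : lam p ∣ x ^ p + y ^ p) : lam p ∣ x + y := by
  obtain ⟨r, hr⟩ := exists_add_pow_prime_eq hp.out x y
  refine (prime_lam p).dvd_of_dvd_pow (n := p) ?_
  rw [hr]
  exact dvd_add h
    (dvd_mul_of_dvd_left (dvd_mul_of_dvd_left (dvd_mul_of_dvd_left (lam_dvd_p p) _) _) _)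

/-- The final contradiction: `qq = ((x + y)^2 - λ x y) / λ`, the norm of `(x + ζ y) / (1 - ζ)`,
cannot be a unit when `λ^2 ∣ x + y ≠ 0` and `λ ∤ y`. -/
theorem not_isUnit_q {x y t : RR p} (hxy : x + y = lam p * t) (h2 : lam p ^ 2 ∣ x + y)
    (hne : x + y ≠ 0) (hy : ¬ lam p ∣ y) {qq : RR p}
    (hq : lamJ p 1 * qq = (x + y) ^ 2 - lamJ p 1 * (x * y)) : ¬ IsUnit qq := by
  intro hunit
  set X := iot p x with hX
  set Y := iot p y with hY
  set T := iot p t with hT
  set z := zet p with hz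
  set w := zet p ^ (p - 1) with hw
  have hzw : z * w = 1 := zet_mul_inv p
  set ε : SS p := (1 - w) * T - Y with hε
  have hsum : X + Y = (1 - z) * (1 - w) * T := by
    have := congrArg (iot p) hxy
    rw [map_add, map_mul, lam, iot_lamJ, pow_one, pow_one] at this
    exact this
  have hεs : sig p ε = (1 - z) * T - Y := by
    have hsw : sig p w = z := by
      rw [hw, map_pow, sig_zet, ← hw, hz]
      have hwp : w ^ p = 1 := by rw [hw, ← pow_mul, mul_comm, pow_mul, zet_pow_p, one_pow]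
      have h' : w ^ (p - 1) * w = 1 := by rw [← pow_succ, Nat.sub_add_cancel hp.out.one_le, hwp]
      exact left_inv_eq_right_inv h' (by rw [mul_comm]; exact hzw)
    rw [hε, map_sub, map_mul, map_sub, map_one, hsw, hT, sig_iot, hY, sig_iot]
  have hprod : ε * sig p ε = iot p qq := by
    have hl : (1 - z) * (1 - w) ≠ 0 := by
      have := lam_ne_zero p
      contrapose! this
      apply iot_injective p
      rw [lam, iot_lamJ, pow_one, pow_one, map_zero]; exact this
    apply mul_left_cancel₀ hl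
    have := congrArg (iot p) hq
    rw [map_sub, map_pow, map_mul, map_mul, map_mul, map_add, iot_lamJ, pow_one, pow_one] at this
    change (1 - z) * (1 - w) * iot p qq = (X + Y) ^ 2 - (1 - z) * (1 - w) * (X * Y) at this
    rw [this, hεs, hε, hsum]
    linear_combination (((1 - z) * (1 - w)) * Y) * hsum + (((1 - z) * (1 - w)) * T * Y) * hzw
  have hεu : IsUnit ε := isUnit_of_dvd_unit ⟨_, hprod.symm⟩ (hunit.map _)
  have hεu' : IsUnit (sig p ε) := hεu.map _
  set W : (SS p)ˣ := hεu.unit * hεu'.unit⁻¹ with hW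
  have hWtor : IsOfFinOrder ((W : SS p) : CycK p) := by
    refine isOfFinOrder_iff_pow_eq_one.2 ?_
    obtain ⟨n, hn, hn'⟩ := Embeddings.pow_eq_one_of_norm_eq_one (CycK p) ℂ
      (x := ((W : SS p) : CycK p)) (RingOfIntegers.isIntegral_coe _) (fun φ => by
        have h' : ((W : SS p) : CycK p) * ((sig p ε : SS p) : CycK p) = ((ε : SS p) : CycK p) := by
          rw [← map_mul, hW, Units.val_mul, mul_assoc]
          congr 1
          conv_lhs => arg 2; arg 2; rw [← hεu'.unit_spec]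
          rw [Units.inv_mul, mul_one, IsUnit.unit_spec]
        have h'' := congrArg (fun v => ‖φ v‖) h'
        simp only [map_mul, norm_mul, IsCMField.coe_ringOfIntegersComplexConj,
          IsCMField.complexEmbedding_complexConj, Complex.norm_conj] at h''
        have hne : ‖φ ((ε : SS p) : CycK p)‖ ≠ 0 := by simp [hεu.ne_zero]
        exact mul_eq_right₀ hne |>.1 h'')
    exact ⟨n, hn, hn'⟩
  obtain ⟨r, -, hr⟩ := (isPrimitiveRoot_zeta p).exists_pow_or_neg_mul_pow_of_isOfFinOrder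
    (hp.out.odd_of_ne_two (by have := h5.out; omega)) hWtor
  have hr' : (W : SS p) = z ^ r ∨ (W : SS p) = -z ^ r := by
    rcases hr with h | h
    · left; apply RingOfIntegers.ext; rw [h]; simp [hz, zet]
    · right; apply RingOfIntegers.ext; rw [h]; simp [hz, zet]
  have hWε : (W : SS p) * sig p ε = ε := by
    rw [hW, Units.val_mul, mul_assoc]
    conv_lhs => arg 2; arg 2; rw [← hεu'.unit_spec]
    rw [Units.inv_mul, mul_one, IsUnit.unit_spec]
  have hplus : ε = z ^ r * sig p ε := by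
    rcases hr' with h | h
    · rw [← h, hWε]
    · exfalso
      rw [h] at hWε
      have h3 : z - 1 ∣ sig p ε - ε := sig_sub_one_dvd p ε
      have h4 : z - 1 ∣ z ^ r - 1 := sub_one_dvd_pow_sub_one _ _
      have h5' : z - 1 ∣ 2 * ε := by
        have : 2 * ε = -(z ^ r - 1) * sig p ε - (sig p ε - ε) := by linear_combination -hWε
        rw [this]
        exact dvd_sub (dvd_mul_of_dvd_left (dvd_neg.2 h4) _) h3
      exact (prime_zet_sub_one p).not_isUnit
        (isUnit_of_dvd_unit (zet_sub_one_dvd_two_imp p h5') hεu)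
  -- `x + ζ y = -ζ^(r+1) (x + ζ⁻¹ y)`
  rw [hεs, hε] at hplus
  have key : (X + Y) * (1 + z ^ (r + 1)) + Y * (z - 1) + Y * z ^ (r + 1) * (w - 1) = 0 := by
    linear_combination (1 - z) * hplus + (1 + z ^ (r + 1)) * hsum
      + (z ^ r * (Y - (1 - z) * T)) * hzw
  have key2 : (X + Y) * (1 + z ^ (r + 1)) = Y * (z - 1) * (z ^ r - 1) := by
    rw [pow_succ] at key ⊢
    linear_combination key - (Y * z ^ r) * hzw
  by_cases hrp : p ∣ r
  · have hr1 : z ^ r = 1 := by
      obtain ⟨k, rfl⟩ := hrp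
      rw [hz, pow_mul, zet_pow_p, one_pow]
    rw [pow_succ, hr1, one_mul, sub_self, mul_zero] at key2
    rcases mul_eq_zero.1 key2 with h | h
    · exact hne (iot_injective p (by rw [map_add, map_zero]; exact h))
    · apply (prime_zet_sub_one p).not_isUnit
      have h2 : z - 1 ∣ (2 : SS p) := ⟨-1, by linear_combination h⟩
      exact isUnit_of_dvd_one (zet_sub_one_dvd_two_imp p (x := 1) (by rwa [mul_one]))
  · have h4 : (z - 1) ^ 4 ∣ (X + Y) * (1 + z ^ (r + 1)) := by
      apply dvd_mul_of_dvd_left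
      have := map_dvd (iot p) h2
      rw [map_pow, map_add] at this
      refine Dvd.dvd.trans ?_ this
      have h' := ((assoc_iot_lam p).pow_pow (n := 2)).symm.dvd
      rwa [← pow_mul] at h'
    rw [key2] at h4
    obtain ⟨u, hu⟩ := assoc_sub_one_pow p hrp
    rw [← hz] at hu
    rw [← hu] at h4
    have h5' : (z - 1) * (z - 1) * ((z - 1) * (z - 1)) ∣ (z - 1) * (z - 1) * (Y * u) := by
      convert h4 using 1 <;> ring
    rw [mul_dvd_mul_iff_left (mul_ne_zero (prime_zet_sub_one p).ne_zero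
      (prime_zet_sub_one p).ne_zero)] at h5'
    have : z - 1 ∣ Y := (Units.dvd_mul_right).1 ((dvd_mul_right _ _).trans h5')
    exact hy ((sub_one_dvd_iot_iff p).1 this)

/-- The quotients of the quadratic factors by the `λ_a` are prime to `lam`, to `x + y` and to
each other. -/
private lemma exists_quotients [IsPrincipalIdealRing (RR p)] {x y : RR p} (hxy : IsCoprime x y)
    (hsum : lam p ∣ x + y) (hx : ¬ lam p ∣ x) (hy : ¬ lam p ∣ y) :
    ∃ (u : ℕ → (RR p)ˣ) (q : ℕ → RR p), (∀ a, a < dd p → lamJ p (a + 1) = lam p * u a) ∧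
      (∀ a, a < dd p → lamJ p (a + 1) * q a = (x + y) ^ 2 - lamJ p (a + 1) * (x * y)) ∧
      (∀ a, ¬ lam p ∣ q a) ∧ (∀ a, a < dd p → IsCoprime (x + y) (q a)) ∧
      (∀ a b, a < dd p → b < dd p → a ≠ b → IsCoprime (q a) (q b)) := by
  have hprime := prime_lam p
  obtain ⟨t, ht⟩ := hsum
  have hex : ∀ a, ∃ u : (RR p)ˣ, a < dd p → lamJ p (a + 1) = lam p * u := by
    intro a
    by_cases ha : a < dd p
    · obtain ⟨u, hu⟩ := (associated_lamJ p (not_p_dvd_succ p ha)).symm
      exact ⟨u, fun _ => hu.symm⟩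
    · exact ⟨1, fun h' => absurd h' ha⟩
  choose u hu using hex
  let q : ℕ → RR p := fun a => ((u a)⁻¹ : (RR p)ˣ) * (lam p * t ^ 2) - x * y
  have hq : ∀ a, a < dd p → lamJ p (a + 1) * q a = (x + y) ^ 2 - lamJ p (a + 1) * (x * y) := by
    intro a ha
    simp only [q, hu a ha, ht]
    linear_combination (lam p ^ 2 * t ^ 2) * (u a).mul_inv
  have hqlam : ∀ a, ¬ lam p ∣ q a := fun a hd => by
    have : lam p ∣ x * y :=
      (dvd_sub_right (dvd_mul_of_dvd_right (dvd_mul_right _ _) _)).1 hd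
    rcases hprime.dvd_or_dvd this with h' | h'
    exacts [hx h', hy h']
  have hbad : ∀ π : RR p, Prime π → π ∣ x + y → π ∣ x * y → False := fun π hπ h1 h2 => by
    rcases hπ.dvd_or_dvd h2 with h' | h'
    · exact hπ.not_isUnit (hxy.isUnit_of_dvd' h' (by simpa using dvd_sub h1 h'))
    · exact hπ.not_isUnit (hxy.isUnit_of_dvd' (by simpa using dvd_sub h1 h') h')
  have hcancel : ∀ π : RR p, Prime π → ¬ π ∣ lam p → ∀ (v : RR p) (c : RR p),
      Associated c (lam p) → π ∣ c * v → π ∣ v := fun π hπ hl v c hc hd =>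
    (hπ.dvd_or_dvd hd).resolve_left fun h' => hl (h'.trans hc.dvd)
  have hql : ∀ π : RR p, Prime π → ∀ a, π ∣ q a → ¬ π ∣ lam p := fun π hπ a hd hl => by
    have := hπ.irreducible.associated_of_dvd hprime.irreducible hl
    exact hqlam a (this.symm.dvd.trans hd)
  refine ⟨u, q, hu, hq, hqlam, fun a ha => ?_, fun a b ha hb hab => ?_⟩
  · refine isCoprime_of_prime_dvd (fun h0 => hqlam a (h0.2 ▸ dvd_zero _)) fun π hπ h1 h2 => ?_
    refine hbad π hπ h1 (hcancel π hπ (hql π hπ a h2) _ _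
      (associated_lamJ p (not_p_dvd_succ p ha)) ?_)
    have : lamJ p (a + 1) * (x * y) = (x + y) ^ 2 - lamJ p (a + 1) * q a := by
      rw [hq a ha]; ring
    rw [this]
    exact dvd_sub (dvd_pow h1 two_ne_zero) (dvd_mul_of_dvd_right h2 _)
  · refine isCoprime_of_prime_dvd (fun h0 => hqlam a (h0.1 ▸ dvd_zero _)) fun π hπ h1 h2 => ?_
    have hl := hql π hπ a h1
    have hxy' : π ∣ x * y := by
      refine hcancel π hπ hl _ _ (assoc_lamJ_sub p ha hb hab) ?_
      have : (lamJ p (b + 1) - lamJ p (a + 1)) * (x * y) =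
          lamJ p (a + 1) * q a - lamJ p (b + 1) * q b := by
        rw [hq a ha, hq b hb]; ring
      rw [this]
      exact dvd_sub (dvd_mul_of_dvd_right h1 _) (dvd_mul_of_dvd_right h2 _)
    refine hbad π hπ (hπ.dvd_of_dvd_pow (n := 2) ?_) hxy'
    have : (x + y) ^ 2 = lamJ p (a + 1) * q a + lamJ p (a + 1) * (x * y) := by rw [hq a ha]; ring
    rw [this]
    exact dvd_add (dvd_mul_of_dvd_right h1 _) (dvd_mul_of_dvd_right hxy' _)

/-- The power of `lam` in `x + y`, and the product of the parts prime to `lam`. -/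
private lemma exists_add_eq_pow_mul {x y z : RR p} {η : (RR p)ˣ}
    {m : ℕ} (hm : 1 ≤ m) (hz : ¬ lam p ∣ z) (h : x ^ p + y ^ p = η * (lam p ^ m * z) ^ p)
    {u : ℕ → (RR p)ˣ} {q : ℕ → RR p} (hu : ∀ a, a < dd p → lamJ p (a + 1) = lam p * u a)
    (hq : ∀ a, a < dd p → lamJ p (a + 1) * q a = (x + y) ^ 2 - lamJ p (a + 1) * (x * y))
    (hqlam : ∀ a, ¬ lam p ∣ q a) :
    ∃ s, x + y = lam p ^ (m * p - dd p) * s ∧ ¬ lam p ∣ s ∧
      Associated (s * ∏ a ∈ range (dd p), q a) (z ^ p) := by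
  have hprime := prime_lam p
  have hlne := lam_ne_zero p
  set U : RR p := ∏ a ∈ range (dd p), (u a : RR p) with hU
  have hUu : IsUnit U := by
    rw [hU, ← Units.coe_prod]; exact Units.isUnit _
  have hle : dd p ≤ m * p := le_trans (dd_le_p p) (Nat.le_mul_of_pos_left p hm)
  have hfac : U * ((x + y) * ∏ a ∈ range (dd p), q a) =
      η * (lam p ^ (m * p - dd p) * z ^ p) := by
    apply mul_left_cancel₀ (pow_ne_zero (dd p) hlne)
    have h' := pow_add_pow_eq_prod p x y
    rw [h, mul_pow, ← pow_mul] at h'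
    have e : ∏ a ∈ range (dd p), ((x + y) ^ 2 - lamJ p (a + 1) * (x * y)) =
        lam p ^ dd p * U * ∏ a ∈ range (dd p), q a := by
      rw [hU, ← card_range (dd p), ← Finset.prod_const, card_range, ← Finset.prod_mul_distrib,
        ← Finset.prod_mul_distrib]
      refine Finset.prod_congr rfl fun a ha => ?_
      rw [← hu a (mem_range.1 ha), hq a (mem_range.1 ha)]
    rw [e, show m * p = dd p + (m * p - dd p) by omega, pow_add] at h'
    linear_combination -h'
  have hnd : ¬ lam p ∣ U * ∏ a ∈ range (dd p), q a := by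
    rw [hUu.dvd_mul_left]
    intro hd
    obtain ⟨a, -, ha⟩ := (hprime.dvd_finsetProd_iff _).1 hd
    exact hqlam a ha
  obtain ⟨s, hs⟩ : lam p ^ (m * p - dd p) ∣ x + y := by
    refine hprime.pow_dvd_of_dvd_mul_right _ hnd ?_
    rw [show (x + y) * (U * ∏ a ∈ range (dd p), q a) =
      η * (lam p ^ (m * p - dd p) * z ^ p) by rw [← hfac]; ring]
    exact dvd_mul_of_dvd_right (dvd_mul_right _ _) _
  have hfac3 : U * (s * ∏ a ∈ range (dd p), q a) = η * z ^ p := by
    apply mul_left_cancel₀ (pow_ne_zero (m * p - dd p) hlne)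
    rw [hs] at hfac
    linear_combination hfac
  refine ⟨s, hs, fun hd => hz (hprime.dvd_of_dvd_pow (n := p) ?_), ?_⟩
  · have : lam p ∣ (η : RR p) * z ^ p := hfac3 ▸ dvd_mul_of_dvd_right (dvd_mul_of_dvd_left hd _) _
    rwa [Units.dvd_mul_left] at this
  · refine (associated_unit_mul_right _ U hUu).trans ?_
    rw [hfac3]
    exact associated_unit_mul_left _ _ η.isUnit

omit h5 in
/-- Pairwise coprime elements with product a `p`-th power up to a unit are themselves `p`-th powers
up to units. -/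
private lemma exists_roots_of_prod [IsPrincipalIdealRing (RR p)] {n : ℕ} {g : ℕ → RR p}
    {z : RR p} (hcop : ∀ a b, a ≤ n → b ≤ n → a ≠ b → IsCoprime (g a) (g b))
    (hg : Associated (∏ a ∈ range (n + 1), g a) (z ^ p)) :
    ∃ (f : ℕ → RR p) (e : ℕ → (RR p)ˣ), (∀ a, a ≤ n → g a = (e a : RR p) * f a ^ p) ∧
      (∀ a, a ≤ n → f a ∣ g a) ∧ (∀ a, 1 ≤ a → a ≤ n → f 0 * f a ∣ z) ∧
      (∀ P : Ideal (RR p), P.IsPrime → z ∈ P → ∃ a, a ≤ n ∧ f a ∈ P) := by
  classical
  have hroot : ∀ a, ∃ (d : RR p) (e : (RR p)ˣ), a ≤ n → g a = (e : RR p) * d ^ p := by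
    intro a
    by_cases ha : a ≤ n
    · have hmem : a ∈ range (n + 1) := mem_range.2 (by omega)
      obtain ⟨v, hv⟩ := hg
      rw [← Finset.mul_prod_erase _ _ hmem] at hv
      have hc : IsCoprime (g a) ((∏ b ∈ (range (n + 1)).erase a, g b) * v) := by
        rw [isCoprime_mul_unit_right_right v.isUnit]
        refine IsCoprime.prod_right fun b hb => hcop a b ha ?_ (ne_of_mem_erase hb).symm
        have := mem_range.1 (mem_of_mem_erase hb)
        omega
      obtain ⟨d, e, he⟩ := exists_associated_pow_of_mul_eq_pow' hc (c := z) (k := p)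
        (by rw [← mul_assoc]; exact hv)
      exact ⟨d, e, fun _ => by rw [← he]; ring⟩
    · exact ⟨0, 1, fun h' => absurd h' ha⟩
  choose f e hfe using hroot
  have hfg : ∀ a, a ≤ n → Associated (f a ^ p) (g a) := fun a ha => by
    rw [hfe a ha]
    exact (associated_unit_mul_left _ _ (e a).isUnit).symm
  refine ⟨f, e, hfe, fun a ha => (dvd_pow_self _ hp.out.ne_zero).trans (hfg a ha).dvd, ?_, ?_⟩
  · intro a h1 ha
    apply (UniqueFactorizationMonoid.pow_dvd_pow_iff_dvd hp.out.ne_zero).1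
    rw [mul_pow]
    refine ((hfg 0 (by omega)).mul_mul (hfg a ha)).dvd.trans (Dvd.dvd.trans ?_ hg.dvd)
    rw [← Finset.prod_pair (show (0 : ℕ) ≠ a by omega)]
    refine Finset.prod_dvd_prod_of_subset _ _ _ fun b hb => ?_
    simp only [mem_insert, mem_singleton] at hb
    rw [mem_range]
    omega
  · intro P hP hzP
    have hmem : ∏ a ∈ range (n + 1), g a ∈ P := by
      obtain ⟨v, hv⟩ := hg.symm
      rw [← hv]
      exact P.mul_mem_right _ (P.pow_mem_of_mem hzP p hp.out.pos)
    obtain ⟨a, ha, hga⟩ := hP.prod_mem_iff.1 hmem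
    have ha' : a ≤ n := by have := mem_range.1 ha; omega
    refine ⟨a, ha', ?_⟩
    rw [hfe a ha'] at hga
    exact hP.mem_of_pow_mem p ((Ideal.unit_mul_mem_iff_mem _ (e a).isUnit).1 hga)

/-- Factorisation step: `x + y` is a power of `λ` and the quadratic factors are `λ_a`, each times
a unit times `f_a^p`, with `f_a` pairwise coprime, prime to `λ` and with the prime divisors of
`z`. -/
theorem factor_step [IsPrincipalIdealRing (RR p)] {x y z : RR p} {η : (RR p)ˣ} {m : ℕ}
    (hm : 1 ≤ m) (hxy : IsCoprime x y) (hz : ¬ lam p ∣ z)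
    (h : x ^ p + y ^ p = η * (lam p ^ m * z) ^ p) :
    ∃ (f : ℕ → RR p) (e : ℕ → (RR p)ˣ),
      x + y = lam p ^ (m * p - dd p) * (e 0 * f 0 ^ p) ∧
      (∀ a, a < dd p → lamJ p (a + 1) * ((e (a + 1) : RR p) * f (a + 1) ^ p) =
        (x + y) ^ 2 - lamJ p (a + 1) * (x * y)) ∧
      (∀ a b, a ≤ dd p → b ≤ dd p → a ≠ b → IsCoprime (f a) (f b)) ∧
      (∀ a, a ≤ dd p → ¬ lam p ∣ f a) ∧
      (∀ a, 1 ≤ a → a ≤ dd p → f 0 * f a ∣ z) ∧
      (∀ P : Ideal (RR p), P.IsPrime → z ∈ P → ∃ a, a ≤ dd p ∧ f a ∈ P) ∧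
      ¬ lam p ∣ x ∧ ¬ lam p ∣ y := by
  have hprime := prime_lam p
  have hsum : lam p ∣ x + y := by
    apply lam_dvd_add_of_dvd_pow_add
    rw [h]
    exact dvd_mul_of_dvd_right (dvd_pow (dvd_mul_of_dvd_left (dvd_pow_self _ (by omega)) _)
      hp.out.ne_zero) _
  have hx : ¬ lam p ∣ x := fun hd =>
    hprime.not_isUnit (hxy.isUnit_of_dvd' hd (by simpa using dvd_sub hsum hd))
  have hy : ¬ lam p ∣ y := fun hd =>
    hprime.not_isUnit (hxy.isUnit_of_dvd' (by simpa using dvd_sub hsum hd) hd)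
  obtain ⟨u, q, hu, hq, hqlam, hcop1, hcop2⟩ := exists_quotients p hxy hsum hx hy
  obtain ⟨s, hs, hsl, hprod⟩ := exists_add_eq_pow_mul p hm hz h hu hq hqlam
  let g : ℕ → RR p := fun a => if a = 0 then s else q (a - 1)
  have hg0 : g 0 = s := rfl
  have hgs : ∀ a, g (a + 1) = q a := fun a => rfl
  have hcopg : ∀ a b, a ≤ dd p → b ≤ dd p → a ≠ b → IsCoprime (g a) (g b) := by
    have hs' : ∀ a, a < dd p → IsCoprime s (q a) := fun a ha =>
      (hcop1 a ha).of_isCoprime_of_dvd_left (hs ▸ dvd_mul_left _ _)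
    intro a b ha hb hab
    rcases a with _ | a <;> rcases b with _ | b
    · exact absurd rfl hab
    · exact hs' b (by omega)
    · exact (hs' a (by omega)).symm
    · exact hcop2 a b (by omega) (by omega) (fun h' => hab (by rw [h']))
  have hgassoc : Associated (∏ a ∈ range (dd p + 1), g a) (z ^ p) := by
    rw [Finset.prod_range_succ']
    simp only [hgs, hg0]
    rwa [mul_comm]
  obtain ⟨f, e, hfe, hdf, hdvd, hprimes⟩ := exists_roots_of_prod p hcopg hgassoc
  refine ⟨f, e, ?_, ?_, ?_, ?_, hdvd, hprimes, hx, hy⟩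
  · rw [hs, ← hg0, hfe 0 (by omega)]
  · intro a ha
    rw [← hfe (a + 1) (by omega), hgs, hq a ha]
  · intro a b ha hb hab
    exact ((hcopg a b ha hb hab).of_isCoprime_of_dvd_left (hdf a ha)).of_isCoprime_of_dvd_right
      (hdf b hb)
  · intro a ha hd
    have := hd.trans (hdf a ha)
    rcases a with _ | a
    · exact hsl this
    · exact hqlam a this

/-- Kummer's descent, by induction on the radical of `z`. -/
theorem descent [IsPrincipalIdealRing (RR p)] (hK : KummerProp p) (I : Ideal (RR p)) :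
    ∀ (x y z : RR p) (η : (RR p)ˣ) (m : ℕ), (Ideal.span {z}).radical = I → 1 ≤ m →
      IsCoprime x y → ¬ lam p ∣ z → x ^ p + y ^ p = η * (lam p ^ m * z) ^ p → False := by
  induction I using WellFoundedGT.induction with
  | ind I ih =>
    intro x y z η m hI hm hxy hz h
    obtain ⟨f, e, hf0, hfa, hcop, hflam, hdvd, hprimes, hx, hy⟩ := factor_step p hm hxy hz h
    have hd2 := two_le_dd p
    have hp2 := p_eq_two_dd p
    set k := m * p - dd p with hk
    have hk2 : 2 ≤ k := by
      have : p ≤ m * p := Nat.le_mul_of_pos_left p hm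
      omega
    have hne : x + y ≠ 0 := by
      rw [hf0]
      refine mul_ne_zero (pow_ne_zero _ (lam_ne_zero p)) (mul_ne_zero (e 0).ne_zero
        (pow_ne_zero _ fun h0 => hflam 0 (by omega) (h0 ▸ dvd_zero _)))
    have hnu : ¬ IsUnit (f 1) := by
      intro hunit
      refine not_isUnit_q p (x := x) (y := y)
        (t := lam p ^ (k - 1) * ((e 0 : RR p) * f 0 ^ p)) (qq := (e 1 : RR p) * f 1 ^ p)
        ?_ (hf0 ▸ dvd_mul_of_dvd_left (pow_dvd_pow _ hk2) _) hne hy (hfa 0 (by omega))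
        ((e 1).isUnit.mul (hunit.pow p))
      rw [hf0, ← mul_assoc (lam p), ← pow_succ', Nat.sub_add_cancel (by omega)]
    -- the new equation
    obtain ⟨u1, hu1⟩ := (associated_lamJ p (not_p_dvd_succ p (show 0 < dd p by omega))).symm
    obtain ⟨u2, hu2⟩ := (associated_lamJ p (not_p_dvd_succ p (show 1 < dd p by omega))).symm
    obtain ⟨u3, hu3⟩ := (assoc_lamJ_sub p (show 0 < dd p by omega) (show 1 < dd p by omega)
      zero_ne_one).symm
    have q1 := hfa 0 (by omega)
    have q2 := hfa 1 (by omega)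
    simp only [zero_add, show (1 + 1 : ℕ) = 2 from rfl] at q1 q2 hu1 hu2 hu3
    set n := 2 * m - 1 with hn
    have hexp : 2 * k + 1 = n * p + 2 := by
      have hle : dd p ≤ m * p := le_trans (dd_le_p p) (Nat.le_mul_of_pos_left p hm)
      rw [hn, Nat.sub_mul, one_mul, mul_assoc]
      have : p ≤ m * p := Nat.le_mul_of_pos_left p hm
      omega
    set η' : (RR p)ˣ := u3 * e 0 ^ 2 * u1⁻¹ * u2⁻¹ with hη'
    have hnew : (e 1 : RR p) * f 1 ^ p - (e 2 : RR p) * f 2 ^ p =
        η' * (lam p ^ n * f 0 ^ 2) ^ p := by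
      have hl2 : lamJ p 1 * lamJ p 2 ≠ 0 := by
        rw [← hu1, ← hu2]
        exact mul_ne_zero (mul_ne_zero (lam_ne_zero p) u1.ne_zero)
          (mul_ne_zero (lam_ne_zero p) u2.ne_zero)
      apply mul_left_cancel₀ hl2
      have e1 : lamJ p 1 * lamJ p 2 * ((e 1 : RR p) * f 1 ^ p - (e 2 : RR p) * f 2 ^ p) =
          (lamJ p 2 - lamJ p 1) * (x + y) ^ 2 := by
        linear_combination lamJ p 2 * q1 - lamJ p 1 * q2
      rw [e1, ← hu3, hf0, ← hu1, ← hu2, hη', mul_pow (lam p ^ n), ← pow_mul (lam p) n p]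
      simp only [Units.val_mul, Units.val_pow_eq_pow_val, mul_pow, ← pow_mul]
      have hpw : lam p ^ (2 * k + 1) = lam p ^ (n * p) * lam p ^ 2 := by rw [hexp, pow_add]
      rw [show k * 2 = 2 * k by ring, show p * 2 = 2 * p by ring]
      linear_combination ((u3 : RR p) * (e 0 : RR p) ^ 2 * f 0 ^ (2 * p)) * hpw
        - (lam p ^ (n * p) * lam p ^ 2 * (u3 : RR p) * (e 0 : RR p) ^ 2 * f 0 ^ (2 * p) *
            ((u2 : RR p) * (u2⁻¹ : (RR p)ˣ))) * u1.mul_inv
        - (lam p ^ (n * p) * lam p ^ 2 * (u3 : RR p) * (e 0 : RR p) ^ 2 * f 0 ^ (2 * p)) *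
            u2.mul_inv
    have hn1 : 1 ≤ n := by omega
    have hpd : (p : RR p) ∣ (e 1 : RR p) * f 1 ^ p - (e 2 : RR p) * f 2 ^ p := by
      rw [hnew]
      refine dvd_mul_of_dvd_right ?_ _
      rw [mul_pow, ← pow_mul]
      exact dvd_mul_of_dvd_left (p_dvd_lam_pow p (le_trans (dd_le_p p)
        (Nat.le_mul_of_pos_left p hn1))) _
    have hcong : ∃ nn : ℤ, (p : RR p) ∣ ((e 2 * (e 1)⁻¹ : (RR p)ˣ) : RR p) - nn := by
      obtain ⟨n1, hn1'⟩ := pow_p_congr p (f 1)
      obtain ⟨n2, hn2'⟩ := pow_p_congr p (f 2)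
      have hn2 : ¬ (p : ℤ) ∣ n2 := fun hd => hflam 2 (by omega) ((prime_lam p).dvd_of_dvd_pow
        (by simpa using dvd_add ((lam_dvd_p p).trans hn2') ((lam_dvd_intCast p).2 hd)))
      obtain ⟨i2, hi2⟩ := isUnit_of_sub_one_not_dvd p hn2
      refine ⟨n1 * i2, ?_⟩
      rw [Units.val_mul]
      set E : RR p := (((e 1)⁻¹ : (RR p)ˣ) : RR p) with hE
      have : (e 2 : RR p) * E - ((n1 * i2 : ℤ) : RR p) =
          (-((e 1 : RR p) * f 1 ^ p - (e 2 : RR p) * f 2 ^ p) * E + (f 1 ^ p - n1)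
            - (e 2 : RR p) * E * (f 2 ^ p - n2)) * i2
            - (e 2 : RR p) * E * ((n2 : RR p) * i2 - 1) := by
        push_cast
        linear_combination (f 1 ^ p * (i2 : RR p)) * (e 1).mul_inv
      rw [this]
      exact dvd_sub (dvd_mul_of_dvd_left (dvd_sub (dvd_add
        (dvd_mul_of_dvd_left (dvd_neg.2 hpd) _) hn1') (dvd_mul_of_dvd_right hn2' _)) _)
        (dvd_mul_of_dvd_right hi2 _)
    obtain ⟨v, hv⟩ := hK _ hcong
    have hnew' : f 1 ^ p + (-((v : RR p) * f 2)) ^ p =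
        (((e 1)⁻¹ * η' : (RR p)ˣ) : RR p) * (lam p ^ n * f 0 ^ 2) ^ p := by
      rw [(hp.out.odd_of_ne_two (by omega)).neg_pow, mul_pow, ← Units.val_pow_eq_pow_val, ← hv,
        Units.val_mul, Units.val_mul, mul_assoc ((e 1)⁻¹ : (RR p)ˣ).val, ← hnew]
      linear_combination -(f 1 ^ p) * (e 1).mul_inv
    refine ih (Ideal.span {f 0 ^ 2}).radical ?_ (f 1) (-((v : RR p) * f 2)) (f 0 ^ 2)
      ((e 1)⁻¹ * η') n rfl hn1 ?_ ?_ hnew'
    · -- the radical grows strictly
      rw [← hI]
      have hdv := hdvd 1 le_rfl (by omega)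
      have hr : (Ideal.span {f 0 ^ 2}).radical = (Ideal.span {f 0}).radical := by
        rw [← Ideal.span_singleton_pow, Ideal.radical_pow _ two_ne_zero]
      rw [hr]
      refine lt_of_le_of_ne (Ideal.radical_mono ?_) fun heq => ?_
      · rw [Ideal.span_singleton_le_span_singleton]
        exact (dvd_mul_right _ _).trans hdv
      · have hmem : f 0 ∈ (Ideal.span {z}).radical := by
          rw [heq]; exact Ideal.le_radical (Ideal.mem_span_singleton_self _)
        obtain ⟨N, hN⟩ := Ideal.mem_radical_iff.1 hmem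
        rw [Ideal.mem_span_singleton] at hN
        have h1' : f 1 ∣ f 0 ^ N := ((dvd_mul_left _ _).trans hdv).trans hN
        exact hnu
          ((hcop 1 0 (by omega) (by omega) one_ne_zero).pow_right.isUnit_of_dvd' dvd_rfl h1')
    · exact ((isCoprime_mul_unit_left_right v.isUnit _ _).2
        (hcop 1 2 (by omega) (by omega) (by omega))).neg_right
    · exact fun hd => hflam 0 (by omega) ((prime_lam p).dvd_of_dvd_pow hd)

/-- **Kummer's theorem**: `x^p + y^p = η (λ^m z)^p` has no solution with `m ≥ 1`, `x, y`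
coprime and `λ ∤ z`, given that `RR p` is principal and Kummer's lemma holds. -/
theorem no_solution [IsPrincipalIdealRing (RR p)] (hK : KummerProp p) {x y z : RR p}
    {η : (RR p)ˣ} {m : ℕ} (hm : 1 ≤ m) (hxy : IsCoprime x y) (hz : ¬ lam p ∣ z) :
    x ^ p + y ^ p ≠ η * (lam p ^ m * z) ^ p :=
  fun h => descent p hK _ x y z η m rfl hm hxy hz h

/-- **The second case of FLT** for `p`: no `a^p + b^p = c^p` with `a, b` coprime, `c ≠ 0` and
`p ∣ c`, given that `RR p` is principal and Kummer's lemma holds. -/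
theorem case_two [IsPrincipalIdealRing (RR p)] (hK : KummerProp p) {a b c : ℤ}
    (hab : IsCoprime a b) (hc0 : c ≠ 0) (hc : (p : ℤ) ∣ c) : a ^ p + b ^ p ≠ c ^ p := by
  intro h
  obtain ⟨k, c', hc', rfl⟩ := WfDvdMonoid.max_power_factor hc0
    (Nat.prime_iff_prime_int.1 hp.out).irreducible
  have hk : 1 ≤ k := by
    by_contra hk0
    obtain rfl : k = 0 := by omega
    rw [pow_zero, one_mul] at hc
    exact hc' hc
  obtain ⟨u, hu⟩ := (associated_p p).symm
  refine no_solution p hK (x := (a : RR p)) (y := (b : RR p)) (z := (c' : RR p))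
    (η := (u ^ k) ^ p) (m := dd p * k) ?_ ?_ ?_ ?_
  · exact Nat.one_le_iff_ne_zero.2 (Nat.mul_ne_zero (by have := two_le_dd p; omega) (by omega))
  · exact hab.map (Int.castRingHom (RR p))
  · exact fun hd => hc' ((lam_dvd_intCast p).1 hd)
  · have := congrArg (Int.cast : ℤ → RR p) h
    push_cast at this
    rw [this, ← hu, pow_mul, Units.val_pow_eq_pow_val, Units.val_pow_eq_pow_val, ← mul_pow]
    congr 1
    rw [mul_pow]; ring

end FermatAgent.FLTReg
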