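import Fermat.Agent.FLTReg.Lambda

/-!
# Kummer's lemma for the real cyclotomic units, from a triangular certificate

A certificate is a family of `(p-3)/2` units, the `k`-th congruent to `c (1 + s λ^(k+1))` modulo
`λ^(k+2)` with `c, s` integers prime to `p`. Their products with exponents not all divisible by `p`
are congruent to no integer modulo `p`, so they span the units modulo `p`-th powers and torsion, and
Kummer's lemma follows.
-/

set_option autoImplicit false

namespace FermatAgent.FLTReg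

open NumberField NumberField.Units

variable (p : ℕ) [hp : Fact p.Prime] [h5 : Fact (5 ≤ p)]

/-- Kummer's lemma as a property of `p`: a unit of `RR p` congruent to a rational integer
modulo `p` is a `p`-th power. -/
def KummerProp : Prop :=
  ∀ u : (RR p)ˣ, (∃ n : ℤ, (p : RR p) ∣ (u : RR p) - n) → ∃ v : (RR p)ˣ, u = v ^ p

/-- The real subfield has degree `(p - 1) / 2`. -/
theorem finrank_realK : Module.finrank ℚ (RealK p) = dd p := by
  have h1 : Module.finrank ℚ (CycK p) = p - 1 := by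
    rw [IsCyclotomicExtension.Rat.finrank (k := p), Nat.totient_prime hp.out]
  have h2 := Module.finrank_mul_finrank ℚ (RealK p) (CycK p)
  rw [Algebra.IsQuadraticExtension.finrank_eq_two (RealK p) (CycK p), h1] at h2
  have := p_eq_two_dd p
  omega

theorem rank_realK : Units.rank (RealK p) = dd p - 1 := by
  rw [Units.rank, InfinitePlace.card_eq_nrRealPlaces_add_nrComplexPlaces,
    IsTotallyReal.nrComplexPlaces_eq_zero, add_zero, ← IsTotallyReal.finrank, finrank_realK]

omit hp h5 in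
theorem torsion_realK_sq (z : torsion (RealK p)) :
    ((z : (RR p)ˣ) : RR p) = 1 ∨ ((z : (RR p)ˣ) : RR p) = -1 := by
  obtain ⟨z, hz⟩ := z
  let φ : RealK p →+* ℂ := Classical.choice (inferInstance : Nonempty _)
  let ψ := (IsTotallyReal.complexEmbedding_isReal φ).embedding
  obtain ⟨n, hn, hzn⟩ := isOfFinOrder_iff_pow_eq_one.1 hz
  have h1 : (ψ ((z : RR p) : RealK p)) ^ n = 1 := by
    rw [← map_pow, ← map_pow, ← Units.val_pow_eq_pow_val, hzn]; simp
  have h2 := abs_eq_abs (a := ψ ((z : RR p) : RealK p)) (b := 1)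
  have h3 : |ψ ((z : RR p) : RealK p)| = 1 := by
    have := congrArg abs h1
    rw [abs_pow, abs_one] at this
    exact (pow_eq_one_iff_of_nonneg (abs_nonneg _) hn.ne').1 this
  rw [abs_one] at h2
  rcases h2.1 h3 with h | h
  · left
    apply RingOfIntegers.ext
    apply ψ.injective
    simpa using h
  · right
    apply RingOfIntegers.ext
    apply ψ.injective
    simpa using h

/-- Congruent to an integer modulo `p`. -/
def CongInt (x : RR p) : Prop := ∃ n : ℤ, (p : RR p) ∣ x - n

omit hp h5 in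
theorem CongInt.mul {x y : RR p} (hx : CongInt p x) (hy : CongInt p y) : CongInt p (x * y) := by
  obtain ⟨a, ha⟩ := hx
  obtain ⟨b, hb⟩ := hy
  refine ⟨a * b, ?_⟩
  have : x * y - ((a * b : ℤ) : RR p) = (x - a) * y + a * (y - b) := by push_cast; ring
  rw [this]
  exact dvd_add (dvd_mul_of_dvd_left ha _) (dvd_mul_of_dvd_right hb _)

theorem CongInt.not_dvd {u : (RR p)ˣ} {n : ℤ} (hn : (p : RR p) ∣ (u : RR p) - n) :
    ¬ (p : ℤ) ∣ n := by
  intro hdvd
  have h1 : lam p ∣ (u : RR p) - n := (lam_dvd_p p).trans hn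
  have h2 : lam p ∣ (u : RR p) := by
    simpa using dvd_add h1 ((lam_dvd_intCast p).2 hdvd)
  exact (prime_lam p).not_isUnit (isUnit_of_dvd_unit h2 u.isUnit)

theorem CongInt.of_mul_left {u : (RR p)ˣ} {x : RR p} (hu : CongInt p u) (hxu : CongInt p (u * x)) :
    CongInt p x := by
  obtain ⟨a, ha⟩ := hu
  obtain ⟨m, hm⟩ := isUnit_of_sub_one_not_dvd p (CongInt.not_dvd p ha)
  obtain ⟨b, hb⟩ := hxu
  refine ⟨m * b, ?_⟩
  have : x - ((m * b : ℤ) : RR p) =
      (u * x - b) * m - ((u : RR p) - a) * (x * m) - ((a : RR p) * m - 1) * x := by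
    push_cast; ring
  rw [this]
  exact dvd_sub (dvd_sub (dvd_mul_of_dvd_left hb _) (dvd_mul_of_dvd_left ha _))
    (dvd_mul_of_dvd_left hm _)

theorem congInt_torsion_mul_pow (z : torsion (RealK p)) (g : (RR p)ˣ) :
    CongInt p (((z : (RR p)ˣ) * g ^ p : (RR p)ˣ) : RR p) := by
  rw [Units.val_mul, Units.val_pow_eq_pow_val]
  refine CongInt.mul p ?_ (pow_p_congr p _)
  rcases torsion_realK_sq p z with h | h
  · exact ⟨1, by simp [h]⟩
  · exact ⟨-1, by simp [h]⟩

/-- `(1 + a)^n ≡ 1 + n a` when `a^2 = 0`, in divisibility form. -/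
theorem dvd_pow_sub {R : Type*} [CommRing R] {M A x c s : R} (hA : M ∣ A * A)
    (hx : M ∣ x - c * (1 + s * A)) (n : ℕ) :
    M ∣ x ^ n - c ^ n * (1 + (n * s) * A) := by
  induction n with
  | zero => simp
  | succ n ih =>
    have e : x ^ (n + 1) - c ^ (n + 1) * (1 + ((n + 1 : ℕ) * s) * A) =
        (x ^ n - c ^ n * (1 + n * s * A)) * x + c ^ n * (1 + n * s * A) * (x - c * (1 + s * A))
          + c ^ (n + 1) * n * s ^ 2 * (A * A) := by
      push_cast; ring
    rw [e]
    exact dvd_add (dvd_add (dvd_mul_of_dvd_left ih _) (dvd_mul_of_dvd_right hx _))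
      (dvd_mul_of_dvd_right hA _)

open Finset in
/-- A product of powers of certificate elements congruent to an integer modulo `p` has all
exponents divisible by `p`: the first other exponent shows at the level of its `λ` power. -/
theorem cert_independent {m : ℕ} (hm : m + 1 ≤ dd p) (w : Fin m → RR p) (c s : Fin m → ℤ)
    (hc : ∀ k, ¬ (p : ℤ) ∣ c k) (hs : ∀ k, ¬ (p : ℤ) ∣ s k)
    (hw : ∀ k : Fin m, lam p ^ ((k : ℕ) + 2) ∣
      w k - (c k : RR p) * (1 + (s k : RR p) * lam p ^ ((k : ℕ) + 1)))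
    (f : Fin m → ℕ) (h : CongInt p (∏ k, w k ^ f k)) : ∀ k, p ∣ f k := by
  classical
  by_contra hne
  push Not at hne
  have hne' : (univ.filter fun k => ¬ p ∣ f k).Nonempty := by
    obtain ⟨k, hk⟩ := hne; exact ⟨k, by simp [hk]⟩
  set k0 := (univ.filter fun k => ¬ p ∣ f k).min' hne' with hk0
  have hk0f : ¬ p ∣ f k0 := (mem_filter.1 (Finset.min'_mem _ hne')).2
  have hmin : ∀ k, k < k0 → p ∣ f k := fun k hk => by
    by_contra hc'
    exact absurd (Finset.min'_le _ k (by simp [hc'])) (not_le.2 hk)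
  set K := (k0 : ℕ) + 2 with hK
  have hKd : K ≤ dd p := by have := k0.2; omega
  have hp' : lam p ^ K ∣ (p : RR p) := lam_pow_dvd_p p hKd
  have h1 : CongInt p (w k0 ^ f k0 * ∏ k ∈ univ.erase k0, w k ^ f k) := by
    rwa [mul_prod_erase univ (fun k => w k ^ f k) (mem_univ k0)]
  obtain ⟨C, hC, hrest⟩ : ∃ C : ℤ, ¬ (p : ℤ) ∣ C ∧
      lam p ^ K ∣ (∏ k ∈ univ.erase k0, w k ^ f k) - C := by
    refine Finset.prod_induction _ (fun x => ∃ C : ℤ, ¬ (p : ℤ) ∣ C ∧ lam p ^ K ∣ x - C)
      ?_ ⟨1, ?_, by simp⟩ ?_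
    · rintro a b ⟨A, hA, ha⟩ ⟨B, hB, hb⟩
      refine ⟨A * B, fun hd => (Int.Prime.dvd_mul' hp.out hd).elim hA hB, ?_⟩
      have : a * b - ((A * B : ℤ) : RR p) = (a - A) * b + A * (b - B) := by push_cast; ring
      rw [this]
      exact dvd_add (dvd_mul_of_dvd_left ha _) (dvd_mul_of_dvd_right hb _)
    · intro hd; have := Int.le_of_dvd one_pos hd; have := h5.out; omega
    · intro k hk
      rcases lt_or_gt_of_ne (ne_of_mem_erase hk) with hlt | hgt
      · obtain ⟨t, ht⟩ := hmin k hlt
        obtain ⟨n, hn⟩ := pow_p_congr p (w k ^ t)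
        refine ⟨n, fun hd => ?_, ?_⟩
        · have h2 : lam p ∣ (w k ^ t) ^ p := by
            simpa using dvd_add ((lam_dvd_p p).trans hn) ((lam_dvd_intCast p).2 hd)
          have h3 : lam p ∣ w k := (prime_lam p).dvd_of_dvd_pow
            ((prime_lam p).dvd_of_dvd_pow h2)
          have h4 : lam p ∣ (c k : RR p) * (1 + (s k : RR p) * lam p ^ ((k : ℕ) + 1)) := by
            have := dvd_sub h3
              ((dvd_pow_self (lam p) (show ((k : ℕ) + 2) ≠ 0 by omega)).trans (hw k))
            simpa using this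
          rcases (prime_lam p).dvd_or_dvd h4 with h4 | h4
          · exact hc k ((lam_dvd_intCast p).1 h4)
          · have : lam p ∣ (1 : RR p) :=
              (dvd_add_left (dvd_mul_of_dvd_right (dvd_pow_self _ (by omega)) _)).1 h4
            exact (prime_lam p).not_dvd_one this
        · rw [ht, mul_comm, pow_mul]
          exact hp'.trans hn
      · refine ⟨c k ^ f k, fun hd => hc k (Int.Prime.dvd_pow' hp.out hd), ?_⟩
        have hk1 : lam p ^ K ∣ w k - (c k : RR p) := by
          have e : w k - (c k : RR p) = (w k - (c k : RR p) * (1 + (s k : RR p) *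
              lam p ^ ((k : ℕ) + 1))) + (c k : RR p) * (s k : RR p) * lam p ^ ((k : ℕ) + 1) := by
            ring
          rw [e]
          exact dvd_add ((pow_dvd_pow _ (by omega)).trans (hw k))
            (dvd_mul_of_dvd_right (pow_dvd_pow _ (by omega)) _)
        push_cast
        exact hk1.trans (sub_dvd_pow_sub_pow _ _ _)
  have h3 := dvd_pow_sub (M := lam p ^ K) (A := lam p ^ ((k0 : ℕ) + 1))
    (by rw [← pow_add]; exact pow_dvd_pow _ (by omega)) (hw k0) (f k0)
  obtain ⟨n, hn⟩ := h1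
  set B : RR p := ((c k0 : RR p) ^ f k0 * C) with hB
  have h4 : lam p ^ K ∣ B * ((f k0 : RR p) * (s k0 : RR p) * lam p ^ ((k0 : ℕ) + 1)) -
      ((n : RR p) - B) := by
    have e : B * ((f k0 : RR p) * (s k0 : RR p) * lam p ^ ((k0 : ℕ) + 1)) - ((n : RR p) - B) =
        (w k0 ^ f k0 * (∏ k ∈ univ.erase k0, w k ^ f k) - n)
        - (w k0 ^ f k0 - (c k0 : RR p) ^ f k0 * (1 + (f k0 : RR p) * (s k0 : RR p) *
            lam p ^ ((k0 : ℕ) + 1))) * (∏ k ∈ univ.erase k0, w k ^ f k)
        - ((∏ k ∈ univ.erase k0, w k ^ f k) - C) * ((c k0 : RR p) ^ f k0 * (1 + (f k0 : RR p) *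
            (s k0 : RR p) * lam p ^ ((k0 : ℕ) + 1))) := by
      rw [hB]; ring
    rw [e]
    exact dvd_sub (dvd_sub (hp'.trans hn) (dvd_mul_of_dvd_left h3 _))
      (dvd_mul_of_dvd_left hrest _)
  have h5' : (p : ℤ) ∣ n - c k0 ^ f k0 * C := by
    rw [← lam_dvd_intCast p]
    push_cast
    have h6 : lam p ∣ B * ((f k0 : RR p) * (s k0 : RR p) * lam p ^ ((k0 : ℕ) + 1)) :=
      dvd_mul_of_dvd_right (dvd_mul_of_dvd_right (dvd_pow_self _ (by omega)) _) _
    have := dvd_sub h6 ((dvd_pow_self (lam p) (show K ≠ 0 by omega)).trans h4)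
    simpa [hB] using this
  have h7 : lam p ^ K ∣ ((n : RR p) - B) := by
    obtain ⟨t, ht⟩ := h5'
    have := congrArg (Int.cast : ℤ → RR p) ht
    push_cast at this
    rw [hB, this]
    exact dvd_mul_of_dvd_left hp' _
  have h8 : lam p ^ K ∣ B * ((f k0 : RR p) * (s k0 : RR p)) * lam p ^ ((k0 : ℕ) + 1) := by
    have := dvd_add h4 h7
    simpa [mul_assoc] using this
  rw [hK, show (k0 : ℕ) + 2 = ((k0 : ℕ) + 1) + 1 by omega, pow_succ',
    mul_dvd_mul_iff_right (pow_ne_zero _ (lam_ne_zero p))] at h8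
  have hfz : ¬ (p : ℤ) ∣ (c k0 ^ f k0 * C) * ((f k0 : ℤ) * s k0) := by
    intro hd
    rcases Int.Prime.dvd_mul' hp.out hd with hd | hd
    · rcases Int.Prime.dvd_mul' hp.out hd with hd | hd
      · exact hc k0 (Int.Prime.dvd_pow' hp.out hd)
      · exact hC hd
    · rcases Int.Prime.dvd_mul' hp.out hd with hd | hd
      · exact hk0f (Int.natCast_dvd_natCast.1 hd)
      · exact hs k0 hd
  apply hfz
  rw [← lam_dvd_intCast p]
  push_cast
  exact h8

/-- The exponents of a unit with respect to the fundamental system, modulo `p`. -/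
noncomputable def unitExp (u : (RR p)ˣ) : Fin (Units.rank (RealK p)) → ℤ :=
  (exist_unique_eq_mul_prod (RealK p) u).choose.2

omit h5 in
/-- A unit with all exponents divisible by `p` is torsion times a `p`-th power. -/
theorem exists_pow_of_unitExp (u : (RR p)ˣ) (h : ∀ i, ((unitExp p u i : ℤ) : ZMod p) = 0) :
    ∃ (z : torsion (RealK p)) (g : (RR p)ˣ), u = (z : (RR p)ˣ) * g ^ p := by
  choose q hq using fun i => (ZMod.intCast_zmod_eq_zero_iff_dvd _ p).1 (h i)
  refine ⟨(exist_unique_eq_mul_prod (RealK p) u).choose.1,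
    ∏ i, fundSystem (RealK p) i ^ q i, ?_⟩
  conv_lhs => rw [(exist_unique_eq_mul_prod (RealK p) u).choose_spec.1]
  congr 1
  rw [← Finset.prod_pow]
  refine Finset.prod_congr rfl fun i _ => ?_
  change fundSystem (RealK p) i ^ unitExp p u i = _
  rw [hq i, mul_comm, zpow_mul, zpow_natCast]

omit hp h5 in
theorem unitExp_mul (u v : (RR p)ˣ) (i) : unitExp p (u * v) i = unitExp p u i + unitExp p v i := by
  have hu := (exist_unique_eq_mul_prod (RealK p) u).choose_spec.1
  have hv := (exist_unique_eq_mul_prod (RealK p) v).choose_spec.1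
  have huv := (exist_unique_eq_mul_prod (RealK p) (u * v)).choose_spec.2
    ((exist_unique_eq_mul_prod (RealK p) u).choose.1 *
      (exist_unique_eq_mul_prod (RealK p) v).choose.1,
      fun j => unitExp p u j + unitExp p v j) (by
    simp only [Subgroup.coe_mul, zpow_add, Finset.prod_mul_distrib, unitExp]
    conv_lhs => rw [hu, hv]
    exact mul_mul_mul_comm _ _ _ _)
  exact (congrFun (congrArg Prod.snd huv) i).symm

/-- `unitExp` modulo `p` as a monoid hom. -/
noncomputable def unitExpHom :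
    Additive (RR p)ˣ →+ (Fin (Units.rank (RealK p)) → ZMod p) :=
  AddMonoidHom.mk' (fun u i => ((unitExp p u.toMul i : ℤ) : ZMod p)) fun a b => by
    funext i; simp [unitExp_mul]

/-- **Kummer's lemma from a certificate**: if there are `(p-3)/2` units with `k`-th member
`≡ c_k (1 + s_k λ^(k+1))` modulo `λ^(k+2)`, `p ∤ c_k, s_k`, then a unit congruent to an integer
modulo `p` is a `p`-th power. -/
theorem kummerProp_of_cert (w : Fin (dd p - 1) → (RR p)ˣ) (c s : Fin (dd p - 1) → ℤ)
    (hc : ∀ k, ¬ (p : ℤ) ∣ c k) (hs : ∀ k, ¬ (p : ℤ) ∣ s k)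
    (hw : ∀ k : Fin (dd p - 1), lam p ^ ((k : ℕ) + 2) ∣
      (w k : RR p) - (c k : RR p) * (1 + (s k : RR p) * lam p ^ ((k : ℕ) + 1))) :
    KummerProp p := by
  classical
  have hm : dd p - 1 + 1 ≤ dd p := by have := two_le_dd p; omega
  let v : Fin (dd p - 1) → (Fin (Units.rank (RealK p)) → ZMod p) :=
    fun k => unitExpHom p (Additive.ofMul (w k))
  have himg : ∀ f : Fin (dd p - 1) → ℕ,
      unitExpHom p (Additive.ofMul (∏ k, w k ^ f k)) = ∑ k, (f k : ZMod p) • v k := by
    intro f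
    rw [ofMul_prod, map_sum]
    refine Finset.sum_congr rfl fun k _ => ?_
    rw [ofMul_pow, map_nsmul, Nat.cast_smul_eq_nsmul]
  have hcong : ∀ f : Fin (dd p - 1) → ℕ,
      CongInt p ((∏ k, w k ^ f k : (RR p)ˣ) : RR p) → ∀ k, p ∣ f k := by
    intro f hf
    refine cert_independent p hm (fun k => (w k : RR p)) c s hc hs hw f ?_
    simpa [Units.coe_prod] using hf
  have hli : LinearIndependent (ZMod p) v := by
    rw [Fintype.linearIndependent_iff]
    intro g hg k
    have h0 : unitExpHom p (Additive.ofMul (∏ k, w k ^ (g k).val)) = 0 := by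
      rw [himg]; simpa using hg
    obtain ⟨z, x, hzx⟩ := exists_pow_of_unitExp p _ (fun i => congrFun h0 i)
    have hci : CongInt p ((∏ k, w k ^ (g k).val : (RR p)ˣ) : RR p) := by
      rw [show (∏ k, w k ^ (g k).val) = (z : (RR p)ˣ) * x ^ p from hzx]
      exact congInt_torsion_mul_pow p z x
    have := hcong _ hci k
    exact (ZMod.val_eq_zero (g k)).1 (Nat.eq_zero_of_dvd_of_lt this (ZMod.val_lt (g k)))
  have hspan : Submodule.span (ZMod p) (Set.range v) = ⊤ :=
    hli.span_eq_top_of_card_eq_finrank' (by simp [rank_realK])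
  intro u hu
  have hmem : unitExpHom p (Additive.ofMul u) ∈ Submodule.span (ZMod p) (Set.range v) := by
    rw [hspan]; exact Submodule.mem_top
  obtain ⟨g, hg⟩ := (Submodule.mem_span_range_iff_exists_fun (ZMod p)).1 hmem
  set W : (RR p)ˣ := ∏ k, w k ^ (g k).val with hWdef
  have hW : unitExpHom p (Additive.ofMul W) = unitExpHom p (Additive.ofMul u) := by
    rw [hWdef, himg, ← hg]; simp
  have h0 : unitExpHom p (Additive.ofMul (u * W⁻¹)) = 0 := by
    rw [ofMul_mul, ofMul_inv, map_add, map_neg, hW, add_neg_cancel]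
  obtain ⟨z, x, hzx⟩ := exists_pow_of_unitExp p _ (fun i => congrFun h0 i)
  have hu' : u = (z : (RR p)ˣ) * x ^ p * W := by
    rw [← mul_inv_eq_iff_eq_mul]; exact hzx
  have hWc : CongInt p (W : RR p) := by
    refine CongInt.of_mul_left p (congInt_torsion_mul_pow p z x) ?_
    rw [← Units.val_mul, ← hu']
    exact hu
  have hall := hcong _ hWc
  have hW1 : W = 1 := by
    rw [hWdef]
    refine Finset.prod_eq_one fun k _ => ?_
    rw [Nat.eq_zero_of_dvd_of_lt (hall k) (ZMod.val_lt (g k)), pow_zero]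
  rw [hW1, mul_one] at hu'
  rcases torsion_realK_sq p z with h | h
  · exact ⟨x, by rw [hu', Units.ext_iff]; simp [h]⟩
  · refine ⟨-x, ?_⟩
    rw [hu', Units.ext_iff, Units.val_mul, Units.val_pow_eq_pow_val, Units.val_pow_eq_pow_val, h,
      Units.val_neg, (hp.out.odd_of_ne_two (by have := h5.out; omega)).neg_pow]
    ring

end FermatAgent.FLTReg
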