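import Fermat.Agent.FLTReg.Setup

/-!
# The prime `λ` of the real cyclotomic ring

`λ` is prime with residue field `𝔽_p`: every element is congruent to an integer modulo `λ`, and
`p`-th powers are congruent to integers modulo `p`.
-/

set_option autoImplicit false

namespace FermatAgent.FLTReg

open NumberField

variable (p : ℕ) [hp : Fact p.Prime] [h5 : Fact (5 ≤ p)]

/-- The prime `ζ - 1` does not divide two. -/
theorem zet_sub_one_dvd_two_imp {x : SS p} (h : zet p - 1 ∣ 2 * x) : zet p - 1 ∣ x := by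
  rcases (prime_zet_sub_one p).dvd_or_dvd h with h | h
  · have : (p : ℤ) ∣ (2 : ℤ) := (zet_sub_one_dvd_intCast p).1 (by exact_mod_cast h)
    have := Int.le_of_dvd (by norm_num) this
    have := h5.out
    omega
  · exact h

theorem sig_zet_sub_one : sig p (zet p - 1) = -(zet p ^ (p - 1)) * (zet p - 1) := by
  rw [map_sub, sig_zet, map_one]
  linear_combination zet_mul_inv p

/-- A real element divisible by `ζ - 1` is divisible by `λ`. -/
theorem lam_dvd_of_sub_one_dvd {y : RR p} (h : zet p - 1 ∣ iot p y) : lam p ∣ y := by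
  rw [← iot_dvd_iff p]
  refine (assoc_iot_lam p).dvd.trans ?_
  obtain ⟨w, hw⟩ := h
  have h1 : (zet p - 1) * w = (zet p - 1) * (-(zet p ^ (p - 1)) * sig p w) := by
    conv_lhs => rw [← hw, ← sig_iot p y, hw, map_mul, sig_zet_sub_one]
    ring
  have h2 := mul_left_cancel₀ (prime_zet_sub_one p).ne_zero h1
  have h3 : zet p - 1 ∣ sig p w - w := sig_sub_one_dvd p w
  have h4 : zet p - 1 ∣ zet p ^ (p - 1) - 1 := sub_one_dvd_pow_sub_one _ _
  have h5 : zet p - 1 ∣ 2 * w := by
    have : 2 * w = -(zet p ^ (p - 1) - 1) * sig p w - (sig p w - w) := by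
      linear_combination h2
    rw [this]
    exact dvd_sub (dvd_mul_of_dvd_left (dvd_neg.2 h4) _) h3
  obtain ⟨t, rfl⟩ := zet_sub_one_dvd_two_imp p h5
  exact ⟨t, by rw [hw]; ring⟩

/-- `ζ - 1` divides a real element iff `λ` does. -/
theorem sub_one_dvd_iot_iff {y : RR p} : zet p - 1 ∣ iot p y ↔ lam p ∣ y := by
  refine ⟨lam_dvd_of_sub_one_dvd p, fun h => ?_⟩
  exact ((dvd_pow_self _ two_ne_zero).trans (assoc_iot_lam p).symm.dvd).trans (map_dvd _ h)

/-- `λ` is nonzero. -/
theorem lam_ne_zero : lam p ≠ 0 := by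
  intro h
  have := assoc_iot_lam p
  rw [h, map_zero] at this
  exact pow_ne_zero 2 (prime_zet_sub_one p).ne_zero (associated_zero_iff_eq_zero _ |>.1 this.symm)

/-- `λ` is prime. -/
theorem prime_lam : Prime (lam p) := by
  refine ⟨lam_ne_zero p, fun h => ?_, fun a b hab => ?_⟩
  · have := (assoc_iot_lam p).isUnit (h.map (iot p))
    exact (prime_zet_sub_one p).not_isUnit ((isUnit_pow_iff two_ne_zero).1 this)
  · rw [← sub_one_dvd_iot_iff, map_mul] at hab
    rw [← sub_one_dvd_iot_iff, ← sub_one_dvd_iot_iff]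
    exact (prime_zet_sub_one p).dvd_or_dvd hab

/-- `λ` divides an integer iff `p` does. -/
theorem lam_dvd_intCast {n : ℤ} : lam p ∣ (n : RR p) ↔ (p : ℤ) ∣ n := by
  rw [← sub_one_dvd_iot_iff, map_intCast, zet_sub_one_dvd_intCast]

theorem exists_int_lam_dvd (x : RR p) : ∃ n : ℤ, lam p ∣ x - n := by
  obtain ⟨n, hn⟩ := exists_int_sub_dvd p (iot p x)
  exact ⟨n, (sub_one_dvd_iot_iff p).1 (by rwa [map_sub, map_intCast])⟩

/-- `λ ^ n` divides `p` for `n ≤ (p - 1) / 2`. -/
theorem lam_pow_dvd_p {n : ℕ} (hn : n ≤ dd p) : lam p ^ n ∣ (p : RR p) :=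
  (pow_dvd_pow _ hn).trans (associated_p p).symm.dvd

/-- `p` divides `λ ^ n` for `n ≥ (p - 1) / 2`. -/
theorem p_dvd_lam_pow {n : ℕ} (hn : dd p ≤ n) : (p : RR p) ∣ lam p ^ n :=
  (associated_p p).dvd.trans (pow_dvd_pow _ hn)

/-- `λ` divides `p`. -/
theorem lam_dvd_p : lam p ∣ (p : RR p) := by
  simpa using lam_pow_dvd_p p (show 1 ≤ dd p by have := two_le_dd p; omega)

omit hp h5 in
/-- `(p - 1) / 2 ≤ p`. -/
theorem dd_le_p : dd p ≤ p := by unfold dd; omega

/-- `p`-th powers are congruent to integers modulo `p`. -/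
theorem pow_p_congr (x : RR p) : ∃ n : ℤ, (p : RR p) ∣ x ^ p - n := by
  obtain ⟨n, t, ht⟩ := exists_int_lam_dvd p x
  refine ⟨n ^ p, ?_⟩
  obtain ⟨r, hr⟩ := exists_add_pow_prime_eq hp.out (n : RR p) (lam p * t)
  have hx : x = (n : RR p) + lam p * t := by linear_combination ht
  rw [hx, hr, Int.cast_pow, mul_pow]
  have : (n : RR p) ^ p + lam p ^ p * t ^ p + p * n * (lam p * t) * r - n ^ p =
      lam p ^ p * t ^ p + p * (n * (lam p * t) * r) := by ring
  rw [this]
  exact dvd_add (dvd_mul_of_dvd_left (p_dvd_lam_pow p (dd_le_p p)) _) (dvd_mul_right _ _)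

omit h5 in
/-- An integer prime to `p` is invertible modulo `p` in the real ring. -/
theorem isUnit_of_sub_one_not_dvd {n : ℤ} (h : ¬ (p : ℤ) ∣ n) :
    ∃ m : ℤ, (p : RR p) ∣ (n : RR p) * m - 1 := by
  have hc : IsCoprime (p : ℤ) n := ((Nat.prime_iff_prime_int.1 hp.out).coprime_iff_not_dvd).2 h
  obtain ⟨a, b, hab⟩ := hc
  refine ⟨b, -(a : RR p), ?_⟩
  have := congrArg (Int.cast : ℤ → RR p) hab
  push_cast at this
  linear_combination this

end FermatAgent.FLTReg
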