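import Fermat.Agent.FLTReg.Kummer

/-!
# The real cyclotomic ring is a PID for small `p`

The norm of a non-zero prime is `≡ 0, ±1` modulo `p`, as Frobenius fixes `ζ + ζ⁻¹` in its residue
field, and the discriminant divides `p^((p-3)/2)`. So the ring is principal when the Minkowski bound
leaves no such norm.
-/

set_option autoImplicit false

namespace FermatAgent.FLTReg

open NumberField

variable (p : ℕ) [hp : Fact p.Prime] [h5 : Fact (5 ≤ p)]

theorem natAbs_discr_realK_dvd : (discr (RealK p)).natAbs ∣ p ^ (dd p - 1) := by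
  have h := NumberField.natAbs_discr_eq_absNorm_differentIdeal_mul_natAbs_discr_pow
    (RealK p) (RR p) (CycK p) (SS p)
  rw [Algebra.IsQuadraticExtension.finrank_eq_two (RealK p) (CycK p)] at h
  have hd : (discr (CycK p)).natAbs = p ^ (p - 2) := by
    rw [IsCyclotomicExtension.Rat.discr_prime p (CycK p)]
    simp [Int.natAbs_mul, Int.natAbs_pow]
  rw [hd] at h
  have h2 : (discr (RealK p)).natAbs ^ 2 ∣ p ^ (p - 2) := ⟨_, by rw [mul_comm]; exact h⟩
  obtain ⟨e, -, he⟩ := (Nat.dvd_prime_pow hp.out).1 ((dvd_pow_self _ two_ne_zero).trans h2)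
  rw [he, ← pow_mul] at h2
  have := (Nat.pow_dvd_pow_iff_le_right hp.out.one_lt).1 h2
  rw [he]
  apply pow_dvd_pow
  have := p_eq_two_dd p
  omega

/-- The norm of a non-zero prime ideal of `RR p` is `≡ 0, ±1` modulo `p`. -/
theorem no_prime_norm (P : Ideal (RR p)) (hP : P.IsPrime) (hP0 : P ≠ ⊥) :
    p ∣ Ideal.absNorm P * (Ideal.absNorm P ^ 2 - 1) := by
  by_contra hcon
  set q := Ideal.absNorm P with hq
  have hq0 : q ≠ 0 := fun h => hcon (by rw [h, zero_mul]; exact dvd_zero _)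
  have hq1 : q ≠ 1 := fun h => hP.ne_top (Ideal.absNorm_eq_one_iff.1 (hq ▸ h))
  have hPm : P.IsMaximal := hP.isMaximal hP0
  let : Field (RR p ⧸ P) := Ideal.Quotient.field P
  have hcard : Nat.card (RR p ⧸ P) = q := rfl
  have : Finite (RR p ⧸ P) := Nat.finite_of_card_ne_zero (hcard ▸ hq0)
  let : Fintype (RR p ⧸ P) := Fintype.ofFinite _
  obtain ⟨ℓ, hℓ⟩ := CharP.exists (RR p ⧸ P)
  obtain ⟨⟨f, hf⟩, hℓp, hcard'⟩ := FiniteField.card (RR p ⧸ P) ℓ
  rw [← Nat.card_eq_fintype_card, hcard] at hcard'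
  simp only [PNat.mk_coe] at hcard'
  have : Fact ℓ.Prime := ⟨hℓp⟩
  -- a maximal ideal of `SS p` above `P`
  obtain ⟨Q, hQm, hQ⟩ := Ideal.exists_ideal_over_maximal_of_isIntegral (R := RR p) (S := SS p) P
    (le_of_eq_of_le ((RingHom.injective_iff_ker_eq_bot _).1 (iot_injective p)) bot_le)
  let : Field (SS p ⧸ Q) := Ideal.Quotient.field Q
  let g : RR p ⧸ P →+* SS p ⧸ Q := Ideal.quotientMap Q (iot p) (le_of_eq hQ.symm)
  have : CharP (SS p ⧸ Q) ℓ := charP_of_injective_ringHom g.injective ℓ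
  set z : SS p ⧸ Q := Ideal.Quotient.mk Q (zet p) with hz
  have hzp : z ^ p = 1 := by rw [hz, ← map_pow, zet_pow_p, map_one]
  have hz0 : z ≠ 0 := fun h => by
    rw [h, zero_pow hp.out.ne_zero] at hzp; exact zero_ne_one hzp
  have hzi : z ^ (p - 1) = z⁻¹ := by
    apply eq_inv_of_mul_eq_one_left
    rw [← pow_succ, Nat.sub_add_cancel hp.out.one_le, hzp]
  -- `θ^q = θ`
  have hfix : (z + z⁻¹) ^ q = z + z⁻¹ := by
    have hθ : g (Ideal.Quotient.mk P (theta p 1)) = z + z⁻¹ := by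
      rw [Ideal.quotientMap_mk, ← hzi]
      simp [iot_theta, hz]
    rw [← hθ, ← map_pow]
    congr 1
    have := FiniteField.pow_card (Ideal.Quotient.mk P (theta p 1))
    rwa [← Nat.card_eq_fintype_card, hcard] at this
  rw [hcard', add_pow_char_pow] at hfix
  rw [← hcard'] at hfix
  have hne1 : z ≠ 1 := by
    intro h1
    have h2 : zet p - 1 ∈ Q := by
      rw [← Ideal.Quotient.eq_zero_iff_mem, map_sub, map_one, ← hz, h1, sub_self]
    have h3 : ((p : ℕ) : SS p) ∈ Q := by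
      obtain ⟨t, ht⟩ := (zet_sub_one_dvd_intCast p (n := (p : ℤ))).2 dvd_rfl
      have : ((p : ℕ) : SS p) = (zet p - 1) * t := by exact_mod_cast ht
      rw [this]
      exact Q.mul_mem_right _ h2
    have h4 : ((p : ℕ) : SS p ⧸ Q) = 0 := by
      rw [← map_natCast (Ideal.Quotient.mk Q)]; exact Ideal.Quotient.eq_zero_iff_mem.2 h3
    rw [CharP.cast_eq_zero_iff (SS p ⧸ Q) ℓ] at h4
    have := (Nat.prime_dvd_prime_iff_eq hℓp hp.out).1 h4
    subst this
    exact hcon (dvd_mul_of_dvd_left (hcard' ▸ dvd_pow_self _ (by omega)) _)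
  have hord : orderOf z = p := orderOf_eq_prime hzp hne1
  have hkey : (z ^ q - z) * (z * z ^ q - 1) = 0 := by
    have h1 : (z ^ q + (z ^ q)⁻¹ - (z + z⁻¹)) * (z * z ^ q) = 0 := by
      rw [← inv_pow, hfix, sub_self, zero_mul]
    field_simp at h1
    linear_combination h1
  rcases mul_eq_zero.1 hkey with h | h
  · have : z ^ (q - 1) = 1 := by
      apply mul_left_cancel₀ hz0
      rw [← pow_succ', Nat.sub_add_cancel (by omega), mul_one, sub_eq_zero.1 h]
    have hd := hord ▸ orderOf_dvd_of_pow_eq_one this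
    apply hcon
    refine dvd_mul_of_dvd_right (hd.trans ?_) _
    simpa using Nat.sub_dvd_pow_sub_pow q 1 2
  · have : z ^ (q + 1) = 1 := by rw [pow_succ']; exact sub_eq_zero.1 h
    have hd := hord ▸ orderOf_dvd_of_pow_eq_one this
    apply hcon
    refine dvd_mul_of_dvd_right (hd.trans ?_) _
    exact ⟨q - 1, by simpa using Nat.sq_sub_sq q 1⟩

open Ideal in
/-- **`RR p` is principal** if no `q` in `[2, B]` is `≡ 0, ±1 mod p` and the Minkowski bound,
computed with `|disc| = p^((p-3)/2)`, is less than `B + 1`. -/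
theorem isPrincipalIdealRing_RR (B : ℕ)
    (hM : (dd p).factorial ^ 2 * p ^ (dd p - 1) < (B + 1) ^ 2 * dd p ^ (2 * dd p))
    (hq : ∀ q ∈ Finset.Icc 2 B, ¬ p ∣ q * (q ^ 2 - 1)) :
    IsPrincipalIdealRing (RR p) := by
  refine RingOfIntegers.isPrincipalIdealRing_of_isPrincipal_of_norm_le_of_isPrime ?_
  intro I hI hle
  exfalso
  have hI0 : (I : Ideal (RR p)) ≠ ⊥ := nonZeroDivisors.coe_ne_zero I
  set q := Ideal.absNorm (I : Ideal (RR p)) with hqdef
  have hbound : (q : ℝ) < B + 1 := by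
    refine lt_of_le_of_lt hle ?_
    rw [IsTotallyReal.nrComplexPlaces_eq_zero, finrank_realK, pow_zero, one_mul]
    have hd : |(discr (RealK p) : ℝ)| ≤ (p : ℝ) ^ (dd p - 1) := by
      rw [← Int.cast_abs, ← Nat.cast_pow]
      have := Nat.le_of_dvd (pow_pos hp.out.pos _) (natAbs_discr_realK_dvd p)
      calc ((|discr (RealK p)| : ℤ) : ℝ) = (((discr (RealK p)).natAbs : ℕ) : ℝ) := by
            rw [Int.abs_eq_natAbs, Int.cast_natCast]
        _ ≤ _ := by exact_mod_cast this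
    refine lt_of_le_of_lt (mul_le_mul_of_nonneg_left (Real.sqrt_le_sqrt hd) (by positivity)) ?_
    have hd0 : (0 : ℝ) < (dd p : ℝ) ^ dd p := by
      have := two_le_dd p; positivity
    rw [div_mul_eq_mul_div, div_lt_iff₀ hd0]
    apply lt_of_pow_lt_pow_left₀ 2 (by positivity)
    rw [mul_pow, mul_pow, Real.sq_sqrt (by positivity), ← pow_mul, mul_comm (dd p) 2]
    exact_mod_cast hM
  have h1 := no_prime_norm p _ hI hI0
  have hq2 : 2 ≤ q := by
    by_contra hlt
    have hq0 : q ≠ 0 := by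
      rw [hqdef, Ne, Ideal.absNorm_eq_zero_iff]; exact hI0
    exact hI.ne_top (Ideal.absNorm_eq_one_iff.1 (by omega))
  have hqB : q < B + 1 := by exact_mod_cast hbound
  exact hq q (Finset.mem_Icc.2 ⟨hq2, by omega⟩) h1

end FermatAgent.FLTReg
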