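import Mathlib

/-!
# The maximal real subfield of the `p`-th cyclotomic field

Basic arithmetic of `RR p = 𝓞 K⁺`, `K = ℚ(ζ_p)`, `p ≥ 5`: `θ_j = ζ^j + ζ^(-j)`,
`λ_j = 2 - θ_j`, all associated to `λ = λ_1` for `p ∤ j`, and `p` associated to `λ^((p-1)/2)`.
Divisibility descends from `𝓞 K` to `RR p`.
-/

set_option autoImplicit false

namespace FermatAgent.FLTReg

open NumberField

variable (p : ℕ) [hp : Fact p.Prime]

/-- The `p`-th cyclotomic field. -/
noncomputable abbrev CycK := CyclotomicField p ℚ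

instance instIsCyclotomicExtensionCycK : IsCyclotomicExtension {p} ℚ (CycK p) := by
  have := CyclotomicField.isCyclotomicExtension p ℚ
  convert this using 0
  congr!

/-- The maximal real subfield of the `p`-th cyclotomic field. -/
noncomputable abbrev RealK := maximalRealSubfield (CycK p)

/-- The ring of integers of the maximal real subfield. -/
abbrev RR := 𝓞 (RealK p)

/-- The ring of integers of the cyclotomic field. -/
abbrev SS := 𝓞 (CycK p)

/-- `(p - 1) / 2` -/
abbrev dd : ℕ := (p - 1) / 2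

/-- The chosen `ζ` is a primitive `p`-th root of unity. -/
theorem isPrimitiveRoot_zeta : IsPrimitiveRoot (IsCyclotomicExtension.zeta p ℚ (CycK p)) p :=
  IsCyclotomicExtension.zeta_spec p ℚ (CycK p)

/-- The `p`-th root of unity in `SS`. -/
noncomputable def zet : SS p := (isPrimitiveRoot_zeta p).toInteger

/-- `ζ` is a primitive `p`-th root of unity in the ring of integers. -/
theorem zet_isPrimitiveRoot : IsPrimitiveRoot (zet p) p :=
  (isPrimitiveRoot_zeta p).toInteger_isPrimitiveRoot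

/-- `ζ ^ p = 1`. -/
theorem zet_pow_p : zet p ^ p = 1 := (zet_isPrimitiveRoot p).pow_eq_one

/-- `ζ ^ (p - 1)` is the inverse of `ζ`. -/
theorem zet_mul_inv : zet p * zet p ^ (p - 1) = 1 := by
  rw [← pow_succ', Nat.sub_add_cancel hp.out.one_le, zet_pow_p]

/-- `ζ - 1` is prime. -/
theorem prime_zet_sub_one : Prime (zet p - 1) := (isPrimitiveRoot_zeta p).zeta_sub_one_prime'

/-- `ζ - 1` divides an integer iff `p` does. -/
theorem zet_sub_one_dvd_intCast {n : ℤ} : zet p - 1 ∣ (n : SS p) ↔ (p : ℤ) ∣ n :=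
  IsCyclotomicExtension.Rat.zeta_sub_one_dvd_intCast_iff' p (isPrimitiveRoot_zeta p)

/-- `ζ` is a unit. -/
theorem isUnit_zet : IsUnit (zet p) := (zet_isPrimitiveRoot p).isUnit hp.out.ne_zero

/-- `ζ ^ i - 1` is associated to `ζ - 1` for `i` prime to `p`. -/
theorem assoc_sub_one_pow {i : ℕ} (hi : ¬ p ∣ i) : Associated (zet p - 1) (zet p ^ i - 1) :=
  (zet_isPrimitiveRoot p).associated_sub_one_pow_sub_one_of_coprime
    ((hp.out.coprime_iff_not_dvd.2 hi).symm)

theorem assoc_one_sub_pow {i : ℕ} (hi : ¬ p ∣ i) : Associated (zet p - 1) (1 - zet p ^ i) := by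
  rw [← neg_sub (zet p ^ i) 1]; exact (assoc_sub_one_pow p hi).neg_right

theorem not_dvd_one' : ¬ p ∣ 1 := fun h => hp.out.one_lt.ne' (Nat.dvd_one.1 h)

/-- Every cyclotomic integer is congruent to an integer modulo `ζ - 1`. -/
theorem exists_int_sub_dvd (w : SS p) : ∃ n : ℤ, zet p - 1 ∣ w - n := by
  have hw : w ∈ Algebra.adjoin ℤ ({zet p} : Set (SS p)) := by
    let pb := IsPrimitiveRoot.integralPowerBasis (n := p) (isPrimitiveRoot_zeta p)
    have h := pb.adjoin_gen_eq_top
    rw [IsPrimitiveRoot.integralPowerBasis_gen] at h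
    exact h ▸ Algebra.mem_top
  rw [Algebra.adjoin_singleton_eq_range_aeval] at hw
  obtain ⟨f, rfl⟩ := hw
  refine ⟨f.eval 1, ?_⟩
  have := Polynomial.sub_dvd_eval_sub (zet p) 1 (f.map (algebraMap ℤ (SS p)))
  rw [Polynomial.eval_map_algebraMap, Polynomial.eval_map_algebraMap] at this
  simpa [Polynomial.aeval_def, Polynomial.eval₂_at_one] using this

variable [h5 : Fact (5 ≤ p)]

instance instIsCMFieldCycK : IsCMField (CycK p) :=
  IsCyclotomicExtension.Rat.isCMField (CycK p) (S := {p}) ⟨p, rfl, by have := h5.out; omega⟩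

/-- `p = 2 dd + 1`. -/
theorem p_eq_two_dd : p = 2 * dd p + 1 := by
  have h := hp.out.odd_of_ne_two (by have := h5.out; omega)
  obtain ⟨k, hk⟩ := h
  unfold dd; omega

omit hp in
/-- `(p - 1) / 2` is at least two. -/
theorem two_le_dd : 2 ≤ dd p := by
  have := h5.out; unfold dd; omega

/-- Complex conjugation on `SS`. -/
noncomputable abbrev sig : SS p ≃ₐ[RR p] SS p := IsCMField.ringOfIntegersComplexConj (CycK p)

/-- Complex conjugation sends `ζ` to `ζ ^ (p - 1)`. -/
theorem sig_zet : sig p (zet p) = zet p ^ (p - 1) := by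
  apply RingOfIntegers.ext
  rw [IsCMField.coe_ringOfIntegersComplexConj]
  simp only [zet, map_pow]
  let φ : CycK p →+* ℂ := Classical.choice (inferInstance : Nonempty _)
  apply φ.injective
  have hz := isPrimitiveRoot_zeta p
  have hn : ‖φ (IsCyclotomicExtension.zeta p ℚ (CycK p))‖ = 1 :=
    (hz.map_of_injective φ.injective).norm'_eq_one hp.out.ne_zero
  change φ (IsCMField.complexConj (CycK p) (IsCyclotomicExtension.zeta p ℚ (CycK p))) =
    φ ((IsCyclotomicExtension.zeta p ℚ (CycK p)) ^ (p - 1))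
  rw [IsCMField.complexEmbedding_complexConj, map_pow, ← Complex.inv_eq_conj hn]
  apply inv_eq_of_mul_eq_one_right
  rw [← pow_succ', Nat.sub_add_cancel hp.out.one_le, ← map_pow, hz.pow_eq_one, map_one]

/-- The inclusion `RR → SS`. -/
noncomputable abbrev iot : RR p →+* SS p := algebraMap (RR p) (SS p)

omit hp h5 in
/-- The real ring injects in the cyclotomic one. -/
theorem iot_injective : Function.Injective (iot p) :=
  RingOfIntegers.algebraMap.injective (RealK p) (CycK p)

/-- Real elements are fixed by complex conjugation. -/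
theorem sig_iot (x : RR p) : sig p (iot p x) = iot p x := AlgEquiv.commutes _ x

theorem sig_eq_iff {x : SS p} : sig p x = x ↔ ∃ r : RR p, iot p r = x := by
  rw [IsCMField.ringOfIntegersComplexConj_eq_self_iff]; rfl

/-- Divisibility descends from `SS` to `RR`. -/
theorem iot_dvd_iff {a b : RR p} : iot p a ∣ iot p b ↔ a ∣ b := by
  refine ⟨fun ⟨t, ht⟩ => ?_, fun h => map_dvd _ h⟩
  rcases eq_or_ne a 0 with rfl | ha
  · rw [map_zero, zero_mul] at ht
    rw [iot_injective p (ht.trans (map_zero _).symm)]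
  have hfix : sig p t = t := by
    have h1 : iot p a * sig p t = iot p a * t := by
      rw [← ht]
      conv_rhs => rw [← sig_iot p b, ht, map_mul, sig_iot]
    exact mul_left_cancel₀ (fun h0 => ha (iot_injective p (h0.trans (map_zero _).symm))) h1
  obtain ⟨r, rfl⟩ := (sig_eq_iff p).1 hfix
  exact ⟨r, iot_injective p (by rw [ht, map_mul])⟩

/-- A real element is a unit iff it is one in the cyclotomic ring. -/
theorem iot_isUnit_iff {a : RR p} : IsUnit (iot p a) ↔ IsUnit a := by
  rw [isUnit_iff_dvd_one, isUnit_iff_dvd_one, ← iot_dvd_iff p, map_one]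

theorem iot_associated_iff {a b : RR p} : Associated (iot p a) (iot p b) ↔ Associated a b := by
  refine ⟨fun h => associated_of_dvd_dvd ((iot_dvd_iff p).1 h.dvd) ((iot_dvd_iff p).1 h.symm.dvd),
    fun h => h.map _⟩

theorem sig_theta_fix (j : ℕ) : sig p (zet p ^ j + (zet p ^ (p - 1)) ^ j) =
    zet p ^ j + (zet p ^ (p - 1)) ^ j := by
  have h2 : (zet p ^ (p - 1)) ^ (p - 1) = zet p := by
    have hq : zet p ^ (p - 1) * (zet p ^ (p - 1)) ^ (p - 1) = 1 := by
      rw [← pow_succ', Nat.sub_add_cancel hp.out.one_le, ← pow_mul, mul_comm, pow_mul,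
        zet_pow_p, one_pow]
    have h' : zet p ^ (p - 1) * zet p = 1 := by rw [mul_comm, zet_mul_inv]
    exact left_inv_eq_right_inv (by rwa [mul_comm] at hq) h'
  simp only [map_add, map_pow, sig_zet, h2]
  ring

/-- `θ_j = ζ^j + ζ^(-j)` -/
noncomputable def theta (j : ℕ) : RR p :=
  Classical.choose ((sig_eq_iff p).1 (sig_theta_fix p j))

/-- `θ_j = ζ ^ j + ζ ^ (-j)`. -/
theorem iot_theta (j : ℕ) : iot p (theta p j) = zet p ^ j + (zet p ^ (p - 1)) ^ j :=
  Classical.choose_spec ((sig_eq_iff p).1 (sig_theta_fix p j))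

/-- `λ_j = 2 - θ_j = (1 - ζ^j)(1 - ζ^(-j))` -/
noncomputable def lamJ (j : ℕ) : RR p := 2 - theta p j

/-- `λ = λ_1` -/
noncomputable def lam : RR p := lamJ p 1

/-- `λ_j = (1 - ζ ^ j) (1 - ζ ^ (-j))`. -/
theorem iot_lamJ (j : ℕ) :
    iot p (lamJ p j) = (1 - zet p ^ j) * (1 - (zet p ^ (p - 1)) ^ j) := by
  have h : zet p ^ j * (zet p ^ (p - 1)) ^ j = 1 := by rw [← mul_pow, zet_mul_inv, one_pow]
  rw [lamJ, map_sub, iot_theta, map_ofNat]
  linear_combination -h

theorem not_dvd_pred_mul {i : ℕ} (hi : ¬ p ∣ i) : ¬ p ∣ (p - 1) * i := by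
  intro h
  rcases hp.out.dvd_mul.1 h with h | h
  · have := Nat.le_of_dvd (by have := h5.out; omega) h
    have := hp.out.two_le
    omega
  · exact hi h

theorem assoc_iot_lamJ {j : ℕ} (hj : ¬ p ∣ j) :
    Associated (iot p (lamJ p j)) ((zet p - 1) ^ 2) := by
  rw [iot_lamJ, sq, ← pow_mul]
  exact ((assoc_one_sub_pow p hj).mul_mul (assoc_one_sub_pow p (not_dvd_pred_mul p hj))).symm

/-- `λ` is associated to `(ζ - 1) ^ 2`. -/
theorem assoc_iot_lam : Associated (iot p (lam p)) ((zet p - 1) ^ 2) :=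
  assoc_iot_lamJ p (not_dvd_one' p)

/-- `λ_j` is associated to `λ` for `j` prime to `p`. -/
theorem associated_lamJ {j : ℕ} (hj : ¬ p ∣ j) : Associated (lamJ p j) (lam p) :=
  (iot_associated_iff p).1 ((assoc_iot_lamJ p hj).trans (assoc_iot_lam p).symm)

/-- `p` is associated to `λ ^ ((p - 1) / 2)`. -/
theorem associated_p : Associated (p : RR p) (lam p ^ dd p) := by
  rw [← iot_associated_iff p, map_natCast, map_pow]
  refine ((IsCyclotomicExtension.Rat.associated_zeta_sub_one_pow_prime p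
    (isPrimitiveRoot_zeta p)).symm.trans ?_)
  have : p - 1 = 2 * dd p := by have := p_eq_two_dd p; omega
  rw [this, pow_mul]
  exact ((assoc_iot_lam p).symm).pow_pow

/-- `θ_a - θ_b` is associated to `λ` if `a ± b` are prime to `p`. -/
theorem associated_theta_sub {a b : ℕ} (hab : ¬ p ∣ a + b) (hba : b < a) (hd : ¬ p ∣ a - b) :
    Associated (theta p a - theta p b) (lam p) := by
  rw [← iot_associated_iff p]
  refine Associated.trans ?_ (assoc_iot_lam p).symm
  have key : iot p (theta p a - theta p b) =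
      (zet p ^ (p - 1)) ^ a * ((zet p ^ (a + b) - 1) * (zet p ^ (a - b) - 1)) := by
    obtain ⟨k, rfl⟩ : ∃ k, a = b + k := ⟨a - b, by omega⟩
    rw [map_sub, iot_theta, iot_theta, show b + k - b = k by omega]
    simp only [pow_add]
    have hb : zet p ^ b * (zet p ^ (p - 1)) ^ b = 1 := by rw [← mul_pow, zet_mul_inv, one_pow]
    have hk : zet p ^ k * (zet p ^ (p - 1)) ^ k = 1 := by rw [← mul_pow, zet_mul_inv, one_pow]
    linear_combination
      (-((zet p ^ b * zet p ^ k - zet p ^ b) * (zet p ^ k * (zet p ^ (p - 1)) ^ k))) * hb +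
      (-(zet p ^ b * zet p ^ k - zet p ^ b) + (zet p ^ (p - 1)) ^ b) * hk
  rw [key, sq]
  exact (associated_unit_mul_left _ _ (((isUnit_zet p).pow _).pow _)).trans
    ((assoc_sub_one_pow p hab).mul_mul (assoc_sub_one_pow p hd)).symm

/-- Complex conjugation is trivial modulo `ζ - 1`. -/
theorem sig_sub_one_dvd (w : SS p) : zet p - 1 ∣ sig p w - w := by
  obtain ⟨n, hn⟩ : ∃ n : ℤ, zet p - 1 ∣ w - n := exists_int_sub_dvd p w
  have h1 : sig p (zet p - 1) = zet p ^ (p - 1) - 1 := by rw [map_sub, sig_zet, map_one]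
  have h2 : zet p - 1 ∣ sig p (w - n) :=
    (((sub_one_dvd_pow_sub_one (zet p) (p - 1)).trans h1.symm.dvd).trans (map_dvd _ hn))
  rw [map_sub, map_intCast] at h2
  simpa using dvd_sub h2 hn

end FermatAgent.FLTReg
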